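import Fermat.Agent.GAL.CT.Defs
import Fermat.Prelude.Def_ModularCurve_LaurentCoeff

/-!
# GAL / CT / A0 : `θ = q d/dq` on Laurent series is a derivation; the residue of `t^m dt` vanishes
-/

set_option autoImplicit false

namespace Fermat.Agent.GAL.CT

open Polynomial Fermat.Agent.GAL.KL Fermat.Agent.S28

section A0
variable {R S : Type*} [CommRing R] [CommRing S]

theorem a0_support_theta (f : LaurentSeries R) : (theta f).support ⊆ f.support := by
  intro n hn
  rw [HahnSeries.mem_support, coeff_theta] at hn
  rw [HahnSeries.mem_support]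
  exact fun h => hn (by rw [h, mul_zero])

theorem theta_add (f g : LaurentSeries R) : theta (f + g) = theta f + theta g := by
  ext n
  simp only [coeff_theta, HahnSeries.coeff_add, mul_add]

theorem theta_mul (f g : LaurentSeries R) : theta (f * g) = theta f * g + f * theta g := by
  ext n
  rw [coeff_theta, HahnSeries.coeff_add, HahnSeries.coeff_mul,
    HahnSeries.coeff_mul_left' f.isPWO_support (a0_support_theta f),
    HahnSeries.coeff_mul_right' g.isPWO_support (a0_support_theta g), Finset.mul_sum,
    ← Finset.sum_add_distrib]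
  refine Finset.sum_congr rfl fun ij hij => ?_
  have h : ij.1 + ij.2 = n := (Finset.mem_antidiagonal.mp hij).2.2
  rw [coeff_theta, coeff_theta, ← h]
  push_cast
  ring

theorem theta_C (c : R) : theta (HahnSeries.C c : LaurentSeries R) = 0 := by
  ext n
  rw [coeff_theta, HahnSeries.coeff_zero]
  by_cases hn : n = 0
  · subst hn; simp
  · rw [HahnSeries.C_apply, HahnSeries.coeff_single_of_ne hn, mul_zero]

theorem theta_pow (f : LaurentSeries R) (n : ℕ) :
    theta (f ^ (n + 1)) = ((n + 1 : ℕ) : LaurentSeries R) * f ^ n * theta f := by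
  induction n with
  | zero => simp
  | succ n ih =>
    rw [pow_succ, theta_mul, ih]
    push_cast
    ring

theorem theta_zero : theta (0 : LaurentSeries R) = 0 := by
  ext n
  simp

theorem a0_theta_neg (f : LaurentSeries R) : theta (-f) = -theta f := by
  ext n
  simp

theorem theta_sub (f g : LaurentSeries R) : theta (f - g) = theta f - theta g := by
  rw [sub_eq_add_neg, theta_add, a0_theta_neg, ← sub_eq_add_neg]

theorem theta_one : theta (1 : LaurentSeries R) = 0 := by
  have := theta_C (1 : R)
  rwa [map_one] at this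

theorem theta_C_mul (c : R) (f : LaurentSeries R) :
    theta (HahnSeries.C c * f) = HahnSeries.C c * theta f := by
  rw [theta_mul, theta_C, zero_mul, zero_add]

theorem theta_inv {K : Type*} [Field K] (f : LaurentSeries K) :
    theta f⁻¹ = -(theta f) * (f⁻¹) ^ 2 := by
  rcases eq_or_ne f 0 with rfl | hf
  · simp [theta_zero]
  · have h1 : theta (f * f⁻¹) = 0 := by rw [mul_inv_cancel₀ hf, theta_one]
    rw [theta_mul] at h1
    have h2 : f * theta f⁻¹ = -(theta f * f⁻¹) := eq_neg_of_add_eq_zero_right h1
    have h3 : theta f⁻¹ = f⁻¹ * (f * theta f⁻¹) := by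
      rw [← mul_assoc, inv_mul_cancel₀ hf, one_mul]
    rw [h3, h2]
    ring

theorem theta_pow_char {K : Type*} [Field K] (p : ℕ) [CharP K p] (f : LaurentSeries K) :
    theta (f ^ p) = 0 := by
  rcases Nat.eq_zero_or_pos p with rfl | hp
  · rw [pow_zero, theta_one]
  · obtain ⟨n, rfl⟩ : ∃ n, p = n + 1 := ⟨p - 1, by omega⟩
    rw [theta_pow]
    have h0 : ((n + 1 : ℕ) : LaurentSeries K) = 0 := by
      have h1 : ((n + 1 : ℕ) : LaurentSeries K) = HahnSeries.C (((n + 1 : ℕ) : K)) := by
        rw [map_natCast]
      rw [h1, CharP.cast_eq_zero K (n + 1), map_zero]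
    rw [h0, zero_mul, zero_mul]

theorem theta_map (φ : R →+* S) (f : LaurentSeries R) :
    theta (HahnSeries.map f φ : LaurentSeries S) = HahnSeries.map (theta f) φ := by
  ext n
  simp

theorem a0_theta_coeffMap (φ : R →+* S) (f : LaurentSeries R) :
    theta (ModularCurve.coeffMap φ f) = ModularCurve.coeffMap φ (theta f) :=
  theta_map φ f

/-- chain rule for polynomials. -/
theorem theta_aeval (f : LaurentSeries R) (p : R[X]) :
    theta (aeval f p) = aeval f (derivative p) * theta f := by
  induction p using Polynomial.induction_on' with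
  | add p q hp hq => rw [map_add, theta_add, hp, hq, map_add, map_add, add_mul]
  | monomial n a =>
    rw [aeval_monomial, derivative_monomial, aeval_monomial]
    have hC : ∀ c : R, algebraMap R (LaurentSeries R) c = HahnSeries.C c := fun c => by
      rw [HahnSeries.algebraMap_apply', PowerSeries.algebraMap_apply, Algebra.algebraMap_self,
        RingHom.id_apply, HahnSeries.ofPowerSeries_C]
    rw [hC, hC, theta_C_mul]
    cases n with
    | zero => simp [theta_one]
    | succ n =>
      rw [theta_pow, map_mul, map_natCast]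
      simp only [Nat.add_sub_cancel]
      ring

theorem theta_ne_zero_of_order {K : Type*} [Field K] (f : LaurentSeries K) (h : f.order = -1) :
    theta f ≠ 0 ∧ (theta f).order = -1 := by
  have hf : f ≠ 0 := by
    rintro rfl
    rw [HahnSeries.order_zero] at h
    omega
  have hc : f.coeff (-1) ≠ 0 := by
    rw [← h]
    exact fun h0 => hf (HahnSeries.coeff_order_eq_zero.mp h0)
  have hc' : (theta f).coeff (-1) ≠ 0 := by
    rw [coeff_theta]
    simpa using hc
  have hne : theta f ≠ 0 := by
    intro h0
    rw [h0] at hc'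
    exact hc' rfl
  refine ⟨hne, le_antisymm (HahnSeries.order_le_of_coeff_ne_zero hc') ?_⟩
  rw [← h]
  have hmem : (theta f).order ∈ f.support :=
    a0_support_theta f (fun h0 => hne (HahnSeries.coeff_order_eq_zero.mp h0))
  exact HahnSeries.order_le_of_coeff_ne_zero hmem

theorem a0_coeff_zero_theta (f : LaurentSeries R) : (theta f).coeff 0 = 0 := by
  simp

/-- the residue of `t^m dt` vanishes (`m ≥ 0`), over `ℤ`. -/
theorem coeff_zero_pow_mul_theta (t : LaurentSeries ℤ) (m : ℕ) : (t ^ m * theta t).coeff 0 = 0 := by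
  have h1 := a0_coeff_zero_theta (t ^ (m + 1))
  rw [theta_pow, mul_assoc] at h1
  have h2 : ((m + 1 : ℕ) : LaurentSeries ℤ) = HahnSeries.C (((m + 1 : ℕ) : ℤ)) := by
    rw [map_natCast]
  rw [h2, HahnSeries.C_mul_eq_smul, HahnSeries.coeff_smul, smul_eq_mul] at h1
  rcases mul_eq_zero.mp h1 with h | h
  · exfalso
    have : (0 : ℤ) < ((m + 1 : ℕ) : ℤ) := by positivity
    omega
  · exact h

/-- ... hence for every series which is the image of a series over `ℤ`. -/
theorem coeff_zero_pow_mul_theta_map (φ : ℤ →+* S) (t : LaurentSeries ℤ) (m : ℕ) :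
    ((HahnSeries.map t φ : LaurentSeries S) ^ m * theta (HahnSeries.map t φ : LaurentSeries S)).coeff 0
      = 0 := by
  have h1 : (HahnSeries.map t φ : LaurentSeries S) = ModularCurve.coeffMap φ t := rfl
  rw [h1, a0_theta_coeffMap, ← map_pow, ← map_mul, ModularCurve.coeffMap_coeff,
    coeff_zero_pow_mul_theta, map_zero]

theorem a0_coeff_zero_pow_mul_theta_coeffMap (φ : ℤ →+* S) (t : LaurentSeries ℤ) (m : ℕ) :
    (ModularCurve.coeffMap φ t ^ m * theta (ModularCurve.coeffMap φ t)).coeff 0 = 0 :=
  coeff_zero_pow_mul_theta_map φ t m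

end A0

/-! ## the names of package CT-ALG-2 (#482, helper28)

`theta_pow`, `theta_inv` above are in helper40's form; helper28's forms are `theta_pow_pred`,
`theta_inv_of_ne`. -/

section ALG2

variable {R S : Type*} [CommRing R] [CommRing S]

theorem theta_neg (x : LaurentSeries R) : theta (-x) = -theta x := a0_theta_neg x

theorem theta_pow_pred (x : LaurentSeries R) (n : ℕ) :
    theta (x ^ n) = (n : LaurentSeries R) * x ^ (n - 1) * theta x := by
  cases n with
  | zero => simp [theta_one]
  | succ n => rw [theta_pow, Nat.add_sub_cancel]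

theorem theta_coeffMap (f : R →+* S) (x : LaurentSeries R) :
    theta (ModularCurve.coeffMap f x) = ModularCurve.coeffMap f (theta x) := a0_theta_coeffMap f x

theorem theta_cz (x : LaurentSeries ℤ) : theta (cz R x) = cz R (theta x) :=
  theta_coeffMap _ x

theorem coeff_zero_theta (x : LaurentSeries R) : (theta x).coeff 0 = 0 := a0_coeff_zero_theta x

/-- `(n+1) t^n θt = θ(t^(n+1))` has constant term `0`, and `ℤ` is torsion free. -/
theorem coeff_zero_pow_mul_theta_int (t : LaurentSeries ℤ) (n : ℕ) :
    (t ^ n * theta t).coeff 0 = 0 := coeff_zero_pow_mul_theta t n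

theorem theta_algebraMap_eq_C (c : R) :
    algebraMap R (LaurentSeries R) c = HahnSeries.C c := by
  have h1 : algebraMap R (PowerSeries R) c = PowerSeries.C c := by simp
  rw [HahnSeries.algebraMap_apply', h1, HahnSeries.ofPowerSeries_C]

/-- **the residue of `P(t) dt` vanishes** (any coefficient ring; by lifting to `ℤ((q))`). -/
theorem coeff_zero_aeval_mul_theta_ring (tZ : LaurentSeries ℤ) (P : R[X]) :
    (aeval (cz R tZ) P * theta (cz R tZ)).coeff 0 = 0 := by
  induction P using Polynomial.induction_on' with
  | add p q hp hq => rw [map_add, add_mul, HahnSeries.coeff_add, hp, hq, add_zero]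
  | monomial n a =>
    rw [aeval_monomial, theta_algebraMap_eq_C,
      mul_assoc, HahnSeries.C_mul_eq_smul, HahnSeries.coeff_smul]
    have h := a0_coeff_zero_pow_mul_theta_coeffMap (Int.castRingHom R) tZ n
    rw [show cz R tZ = ModularCurve.coeffMap (Int.castRingHom R) tZ from rfl, h, smul_zero]

variable {k : Type*} [Field k]

theorem theta_inv_of_ne (x : LaurentSeries k) (_hx : x ≠ 0) : theta x⁻¹ = -theta x / x ^ 2 := by
  rw [theta_inv, div_eq_mul_inv, inv_pow]

theorem theta_div (x y : LaurentSeries k) (hy : y ≠ 0) :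
    theta (x / y) = (theta x * y - x * theta y) / y ^ 2 := by
  rw [div_eq_mul_inv, theta_mul, theta_inv]
  field_simp
  ring

/-- **the residue of `P(t) dt` vanishes** (any characteristic; by lifting to `ℤ((q))`). -/
theorem coeff_zero_aeval_mul_theta (tZ : LaurentSeries ℤ) (P : k[X]) :
    (aeval (cz k tZ) P * theta (cz k tZ)).coeff 0 = 0 :=
  coeff_zero_aeval_mul_theta_ring tZ P

end ALG2

end Fermat.Agent.GAL.CT
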