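import Fermat.Agent.GAL.CT.Defs

/-!
# GAL / CT-A8 : the only pole of `x` is the place `q = 0` (Eisenstein argument)
-/

set_option autoImplicit false

namespace Fermat.Agent.GAL.CT

open Polynomial Fermat.Agent.GAL.KL Fermat.Agent.S28

/-! ## valuations trivial on the constants -/

section Val

variable {k F Γ : Type*} [Field k] [Field F] [Algebra k F] [LinearOrderedCommGroupWithZero Γ]

theorem a8_val_const_le (v : Valuation F Γ) (hk : ∀ c : k, c ≠ 0 → v (algebraMap k F c) = 1)
    (c : k) : v (algebraMap k F c) ≤ 1 := by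
  by_cases hc : c = 0
  · rw [hc, map_zero, map_zero]; exact zero_le_one
  · exact (hk c hc).le

theorem a8_val_aeval_le (v : Valuation F Γ) (hk : ∀ c : k, c ≠ 0 → v (algebraMap k F c) = 1)
    {x : F} (hx : 1 ≤ v x) (p : k[X]) {e : ℕ} (he : p.natDegree ≤ e) :
    v (aeval x p) ≤ v x ^ e := by
  rw [aeval_eq_sum_range]
  refine v.map_sum_le fun i hi => ?_
  rw [Algebra.smul_def, map_mul, map_pow]
  have hi' : i ≤ e := (Nat.lt_succ_iff.mp (Finset.mem_range.mp hi)).trans he
  calc v (algebraMap k F (p.coeff i)) * v x ^ i ≤ 1 * v x ^ e :=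
        mul_le_mul' (a8_val_const_le v hk _) (pow_le_pow_right₀ hx hi')
    _ = v x ^ e := one_mul _

theorem a8_val_aeval_le_one (v : Valuation F Γ) (hk : ∀ c : k, c ≠ 0 → v (algebraMap k F c) = 1)
    {x : F} (hx : v x ≤ 1) (p : k[X]) : v (aeval x p) ≤ 1 := by
  rw [aeval_eq_sum_range]
  refine v.map_sum_le fun i _ => ?_
  rw [Algebra.smul_def, map_mul, map_pow]
  exact mul_le_one' (a8_val_const_le v hk _) (pow_le_one' hx i)

theorem a8_val_aeval_eq (v : Valuation F Γ) (hk : ∀ c : k, c ≠ 0 → v (algebraMap k F c) = 1)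
    {x : F} (hx : 1 < v x) {p : k[X]} (hp : p ≠ 0) :
    v (aeval x p) = v x ^ p.natDegree := by
  classical
  rw [aeval_eq_sum_range]
  have hlead : v (p.coeff p.natDegree • x ^ p.natDegree) = v x ^ p.natDegree := by
    rw [Algebra.smul_def, map_mul, map_pow, hk _ (by simpa using hp), one_mul]
  rw [v.map_sum_eq_of_lt (j := p.natDegree) (Finset.self_mem_range_succ _), hlead]
  intro i hi
  rw [hlead, Algebra.smul_def, map_mul, map_pow]
  have hi' : i < p.natDegree := by
    have h1 := Finset.mem_sdiff.mp hi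
    have h2 : i ≠ p.natDegree := by simpa using h1.2
    have h3 := Nat.lt_succ_iff.mp (Finset.mem_range.mp h1.1)
    omega
  calc v (algebraMap k F (p.coeff i)) * v x ^ i ≤ 1 * v x ^ i :=
        mul_le_mul' (a8_val_const_le v hk _) le_rfl
    _ = v x ^ i := one_mul _
    _ < v x ^ p.natDegree := pow_lt_pow_right₀ hx hi'

end Val

/-! ## the `q`-adic valuation -/

section Mu

variable {k F : Type*} [Field k] [Field F] [Algebra k F]

/-- the `X`-adic valuation of a nonzero Laurent series is `exp (-order)`. -/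
theorem a8_valuation_eq (x : LaurentSeries k) (hx : x ≠ 0) :
    (Valued.v x : WithZero (Multiplicative ℤ)) = WithZero.exp (-x.order) := by
  have h0 : (Valued.v x : WithZero (Multiplicative ℤ)) ≠ 0 := (Valuation.ne_zero_iff _).2 hx
  have h1 : (Valued.v x : WithZero (Multiplicative ℤ)) ≤ WithZero.exp (-x.order) :=
    (LaurentSeries.valuation_le_iff_coeff_lt_eq_zero k).2
      fun n hn => HahnSeries.coeff_eq_zero_of_lt_order hn
  have h2 : ¬ (Valued.v x : WithZero (Multiplicative ℤ)) ≤ WithZero.exp (-(x.order + 1)) := fun h =>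
    (mt HahnSeries.coeff_order_eq_zero.1 hx)
      ((LaurentSeries.valuation_le_iff_coeff_lt_eq_zero k).1 h _ (by omega))
  obtain ⟨a, ha⟩ : ∃ a : ℤ, (Valued.v x : WithZero (Multiplicative ℤ)) = WithZero.exp a :=
    ⟨WithZero.log _, (WithZero.exp_log h0).symm⟩
  rw [ha] at h1 h2 ⊢
  rw [WithZero.exp_le_exp] at h1 h2
  congr 1
  omega

/-- the valuation `z ↦ exp (- ord_q (ι z))` of `F`. -/
noncomputable def a8_mu (ι : F →ₐ[k] LaurentSeries k) :
    Valuation F (WithZero (Multiplicative ℤ)) :=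
  (Valued.v : Valuation (LaurentSeries k) (WithZero (Multiplicative ℤ))).comap (ι : F →+* _)

theorem a8_mu_eq (ι : F →ₐ[k] LaurentSeries k) {z : F} (hz : z ≠ 0) :
    a8_mu ι z = WithZero.exp (-(ι z).order) :=
  a8_valuation_eq _ (by simpa using hz)

theorem a8_mu_le_one_iff (ι : F →ₐ[k] LaurentSeries k) (z : F) :
    a8_mu ι z ≤ 1 ↔ 0 ≤ (ι z).order := by
  by_cases hz : z = 0
  · subst hz
    simp
  · rw [a8_mu_eq ι hz, ← WithZero.exp_zero, WithZero.exp_le_exp]
    omega

theorem a8_mu_const (ι : F →ₐ[k] LaurentSeries k) (c : k) (hc : c ≠ 0) :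
    a8_mu ι (algebraMap k F c) = 1 := by
  have h0 : algebraMap k F c ≠ 0 := by simpa using hc
  rw [a8_mu_eq ι h0, AlgHom.commutes, ModularCurve.algebraMap_laurentSeries_eq_single,
    HahnSeries.order_single hc]
  simp

end Mu

/-! ## the Eisenstein argument -/

section Main

variable {k F : Type*} [Field k] [Field F] [Algebra k F]

/-- `(⇒)` at the place `q = 0`. -/
theorem a8_natDegree_le (ι : F →ₐ[k] LaurentSeries k) (x u : F) (m : ℕ) (hm : 0 < m)
    (hx : (ι x).order = -m) (hu : (ι u).order = 1) (d : k[X]) (p : Fin m → k[X]) (hd : d ≠ 0)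
    (z : F) (hz : 0 ≤ (ι z).order) (h : aeval x d * z = ∑ i, aeval x (p i) * u ^ (i : ℕ))
    (i : Fin m) : (p i).natDegree ≤ d.natDegree := by
  classical
  have hx0 : x ≠ 0 := by
    rintro rfl
    rw [map_zero, HahnSeries.order_zero] at hx
    omega
  have hu0 : u ≠ 0 := by
    rintro rfl
    rw [map_zero, HahnSeries.order_zero] at hu
    omega
  set μ := a8_mu ι with hμ
  have hk : ∀ c : k, c ≠ 0 → μ (algebraMap k F c) = 1 := a8_mu_const ι
  have hμx : μ x = WithZero.exp (m : ℤ) := by rw [hμ, a8_mu_eq ι hx0, hx, neg_neg]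
  have hμu : μ u = WithZero.exp (-1 : ℤ) := by rw [hμ, a8_mu_eq ι hu0, hu]
  have hx1 : 1 < μ x := by
    rw [hμx, ← WithZero.exp_zero, WithZero.exp_lt_exp]
    exact_mod_cast hm
  have hterm : ∀ i : Fin m, p i ≠ 0 → μ (aeval x (p i) * u ^ (i : ℕ))
      = WithZero.exp ((m : ℤ) * (p i).natDegree - (i : ℕ)) := by
    intro i hi
    rw [map_mul, map_pow, a8_val_aeval_eq μ hk hx1 hi, hμx, hμu, ← WithZero.exp_nsmul,
      ← WithZero.exp_nsmul, ← WithZero.exp_add]
    congr 1
    simp only [nsmul_eq_mul]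
    ring
  by_cases hi : p i = 0
  · rw [hi]; simp
  have : Nonempty (Fin m) := ⟨i⟩
  obtain ⟨j, -, hj⟩ := Finset.exists_max_image Finset.univ
    (fun i : Fin m => μ (aeval x (p i) * u ^ (i : ℕ))) Finset.univ_nonempty
  have hji : μ (aeval x (p i) * u ^ (i : ℕ)) ≤ μ (aeval x (p j) * u ^ (j : ℕ)) :=
    hj i (Finset.mem_univ i)
  have hpj : p j ≠ 0 := by
    intro h0
    rw [hterm i hi, h0, map_zero, zero_mul, map_zero] at hji
    exact absurd hji (not_le.mpr (WithZero.exp_pos))
  have hsum : μ (∑ i, aeval x (p i) * u ^ (i : ℕ)) = μ (aeval x (p j) * u ^ (j : ℕ)) := by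
    apply μ.map_sum_eq_of_lt (Finset.mem_univ j)
    intro l hl
    have hlj : l ≠ j := by simpa using (Finset.mem_sdiff.mp hl).2
    refine lt_of_le_of_ne (hj l (Finset.mem_univ l)) ?_
    by_cases hpl : p l = 0
    · rw [hpl, map_zero, zero_mul, map_zero, hterm j hpj]
      exact (WithZero.exp_ne_zero).symm
    · rw [hterm l hpl, hterm j hpj]
      intro heq
      have h1 := WithZero.exp_injective heq
      apply hlj
      have h2 : (m : ℤ) ∣ ((l : ℕ) : ℤ) - ((j : ℕ) : ℤ) :=
        ⟨((p l).natDegree : ℤ) - (p j).natDegree, by linarith⟩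
      have h3 : |((l : ℕ) : ℤ) - ((j : ℕ) : ℤ)| < m := by
        have := l.2
        have := j.2
        rw [abs_lt]
        constructor <;> omega
      have h4 := Int.eq_zero_of_abs_lt_dvd h2 h3
      apply Fin.ext
      omega
  have hz1 : μ z ≤ 1 := (a8_mu_le_one_iff ι z).mpr hz
  have hfin : WithZero.exp ((m : ℤ) * (p i).natDegree - (i : ℕ))
      ≤ WithZero.exp ((m : ℤ) * d.natDegree) := by
    rw [← hterm i hi]
    refine hji.trans ?_
    rw [← hsum, ← h, map_mul, a8_val_aeval_eq μ hk hx1 hd, hμx, ← WithZero.exp_nsmul]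
    calc WithZero.exp (d.natDegree • (m : ℤ)) * μ z ≤ WithZero.exp (d.natDegree • (m : ℤ)) * 1 :=
          mul_le_mul' le_rfl hz1
      _ = WithZero.exp ((m : ℤ) * d.natDegree) := by
          rw [mul_one, nsmul_eq_mul, mul_comm]
  rw [WithZero.exp_le_exp] at hfin
  by_contra hcon
  rw [not_le] at hcon
  have h5 : (m : ℤ) * (d.natDegree + 1) ≤ (m : ℤ) * (p i).natDegree := by
    apply mul_le_mul_of_nonneg_left _ (by positivity)
    exact_mod_cast hcon
  have := i.2
  have h6 : ((i : ℕ) : ℤ) < m := by exact_mod_cast this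
  linarith

theorem a8_val_const (O : ValuationSubring F) (hO : OverK k O) (c : k) (hc : c ≠ 0) :
    O.valuation (algebraMap k F c) = 1 := by
  apply le_antisymm ((O.valuation_le_one_iff _).mpr (hO c))
  have h1 : O.valuation (algebraMap k F c⁻¹) ≤ 1 := (O.valuation_le_one_iff _).mpr (hO c⁻¹)
  have h0 : O.valuation (algebraMap k F c) ≠ 0 := by
    rw [Valuation.ne_zero_iff]
    simpa using hc
  rw [map_inv₀, map_inv₀] at h1
  exact (inv_le_one₀ (zero_lt_iff.mpr h0)).mp h1

/-- `(⇐)` at an arbitrary place where `x` has a pole and `u` is regular. -/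
theorem a8_mem_of_natDegree_le (x u : F) (m : ℕ) (O : ValuationSubring F) (hO : OverK k O)
    (hxO : x ∉ O) (huO : u ∈ O) (d : k[X]) (p : Fin m → k[X]) (hd : d ≠ 0) (z : F)
    (h : aeval x d * z = ∑ i, aeval x (p i) * u ^ (i : ℕ))
    (hdeg : ∀ i, (p i).natDegree ≤ d.natDegree) : z ∈ O := by
  set w := O.valuation with hw
  have hk : ∀ c : k, c ≠ 0 → w (algebraMap k F c) = 1 := a8_val_const O hO
  have hx1 : 1 < w x := by
    rw [← not_le, hw, O.valuation_le_one_iff]
    exact hxO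
  have hu1 : w u ≤ 1 := (O.valuation_le_one_iff _).mpr huO
  have h1 : w (aeval x d * z) ≤ w x ^ d.natDegree := by
    rw [h]
    refine w.map_sum_le fun i _ => ?_
    rw [map_mul, map_pow]
    calc w (aeval x (p i)) * w u ^ (i : ℕ) ≤ w x ^ d.natDegree * 1 :=
          mul_le_mul' (a8_val_aeval_le w hk hx1.le _ (hdeg i)) (pow_le_one' hu1 _)
      _ = w x ^ d.natDegree := mul_one _
  rw [map_mul, a8_val_aeval_eq w hk hx1 hd] at h1
  have h2 : 0 < w x ^ d.natDegree := pow_pos (zero_lt_one.trans hx1) _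
  rw [← O.valuation_le_one_iff]
  exact le_of_mul_le_mul_left (by rwa [mul_one]) h2

/-- `u` is regular at every pole of `x`. -/
theorem a8_u_mem (ι : F →ₐ[k] LaurentSeries k) (x u : F) (m : ℕ) (hm : 0 < m)
    (hx : (ι x).order = -m) (hu : (ι u).order = 1)
    (hspan : ∀ z : F, ∃ (d : k[X]) (p : Fin m → k[X]), d ≠ 0 ∧
      aeval x d * z = ∑ i, aeval x (p i) * u ^ (i : ℕ))
    (O : ValuationSubring F) (hO : OverK k O) (hxO : x ∉ O) : u ∈ O := by
  obtain ⟨d, p, hd, h⟩ := hspan (u ^ m)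
  have hu0 : ι u ≠ 0 := by
    intro h0
    rw [h0, HahnSeries.order_zero] at hu
    omega
  have hord : 0 ≤ (ι (u ^ m)).order := by
    rw [map_pow, HahnSeries.order_pow, hu]
    simp
  have hdeg := a8_natDegree_le ι x u m hm hx hu d p hd (u ^ m) hord h
  set w := O.valuation with hw
  have hk : ∀ c : k, c ≠ 0 → w (algebraMap k F c) = 1 := a8_val_const O hO
  have hx1 : 1 < w x := by
    rw [← not_le, hw, O.valuation_le_one_iff]
    exact hxO
  rw [← O.valuation_le_one_iff]
  by_contra hcon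
  rw [not_le] at hcon
  obtain ⟨m', rfl⟩ : ∃ m', m = m' + 1 := ⟨m - 1, by omega⟩
  have h1 : w (aeval x d * u ^ (m' + 1)) ≤ w x ^ d.natDegree * w u ^ m' := by
    rw [h]
    refine w.map_sum_le fun i _ => ?_
    rw [map_mul, map_pow]
    exact mul_le_mul' (a8_val_aeval_le w hk hx1.le _ (hdeg i))
      (pow_le_pow_right₀ hcon.le (Nat.lt_succ_iff.mp i.2))
  rw [map_mul, a8_val_aeval_eq w hk hx1 hd, map_pow] at h1
  have h2 : 0 < w x ^ d.natDegree := pow_pos (zero_lt_one.trans hx1) _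
  have h3 := le_of_mul_le_mul_left h1 h2
  exact absurd h3 (not_le.mpr (pow_lt_pow_right₀ hcon (Nat.lt_succ_self m')))

theorem a8_mem_of_order_nonneg (ι : F →ₐ[k] LaurentSeries k) (x u : F) (m : ℕ) (hm : 0 < m)
    (hx : (ι x).order = -m) (hu : (ι u).order = 1)
    (hspan : ∀ z : F, ∃ (d : k[X]) (p : Fin m → k[X]), d ≠ 0 ∧
      aeval x d * z = ∑ i, aeval x (p i) * u ^ (i : ℕ))
    (O : ValuationSubring F) (hO : OverK k O) (hxO : x ∉ O) (z : F)
    (hz : 0 ≤ (ι z).order) : z ∈ O := by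
  obtain ⟨d, p, hd, h⟩ := hspan z
  exact a8_mem_of_natDegree_le x u m O hO hxO (a8_u_mem ι x u m hm hx hu hspan O hO hxO) d p hd z h
    (a8_natDegree_le ι x u m hm hx hu d p hd z hz h)

theorem unique_pole (ι : F →ₐ[k] LaurentSeries k) (x u : F) (m : ℕ) (hm : 0 < m)
    (hx : (ι x).order = -m) (hu : (ι u).order = 1)
    (hspan : ∀ z : F, ∃ (d : k[X]) (p : Fin m → k[X]), d ≠ 0 ∧
      aeval x d * z = ∑ i, aeval x (p i) * u ^ (i : ℕ))
    (O : ValuationSubring F) (hO : OverK k O) (hxO : x ∉ O) (z : F) :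
    z ∈ O ↔ 0 ≤ (ι z).order := by
  refine ⟨fun hz => ?_, a8_mem_of_order_nonneg ι x u m hm hx hu hspan O hO hxO z⟩
  by_contra hcon
  rw [not_le] at hcon
  have hz0 : z ≠ 0 := by
    rintro rfl
    rw [map_zero, HahnSeries.order_zero] at hcon
    exact lt_irrefl _ hcon
  have hιz : ι z ≠ 0 := by simpa using hz0
  have hx0 : ι x ≠ 0 := by
    intro h0
    rw [h0, HahnSeries.order_zero] at hx
    omega
  have hinv : (ι z⁻¹).order = -(ι z).order := by
    have h1 : ι z⁻¹ * ι z = 1 := by rw [← map_mul, inv_mul_cancel₀ hz0, map_one]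
    have h2 : ι z⁻¹ ≠ 0 := left_ne_zero_of_mul_eq_one h1
    have h3 := HahnSeries.order_mul h2 hιz
    rw [h1, HahnSeries.order_one] at h3
    omega
  have hy : 0 ≤ (ι (x * z⁻¹ ^ m)).order := by
    have h2 : ι z⁻¹ ≠ 0 := by simpa using hz0
    rw [map_mul, map_pow, HahnSeries.order_mul hx0 (pow_ne_zero _ h2), HahnSeries.order_pow, hx,
      hinv, nsmul_eq_mul]
    have : (m : ℤ) * 1 ≤ (m : ℤ) * -(ι z).order :=
      mul_le_mul_of_nonneg_left (by omega) (by positivity)
    linarith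
  have hyO := a8_mem_of_order_nonneg ι x u m hm hx hu hspan O hO hxO _ hy
  apply hxO
  have : x = x * z⁻¹ ^ m * z ^ m := by
    rw [mul_assoc, ← mul_pow, inv_mul_cancel₀ hz0, one_pow, mul_one]
  rw [this]
  exact mul_mem hyO (pow_mem hz m)

/-! ## consequences -/

theorem a8_mem_of_isIntegralElem {R : Type*} [CommRing R] (f : R →+* F) (O : ValuationSubring F)
    (hf : ∀ r, f r ∈ O) {z : F} (hz : f.IsIntegralElem z) : z ∈ O := by
  obtain ⟨P, hP, hPz⟩ := hz
  let g : R →+* O := f.codRestrict O.toSubring hf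
  have hint : IsIntegral O z := ⟨P.map g, hP.map g, by rw [eval₂_map]; exact hPz⟩
  obtain ⟨y, rfl⟩ := IsIntegrallyClosed.isIntegral_iff.mp hint
  exact y.2

theorem a8_aeval_mem (O : ValuationSubring F) (hO : OverK k O) {x : F} (hx : x ∈ O) (p : k[X]) :
    aeval x p ∈ O := by
  rw [aeval_eq_sum_range]
  refine sum_mem fun i _ => ?_
  rw [Algebra.smul_def]
  exact mul_mem (hO _) (pow_mem hx i)

theorem a8_mem_of_isInt (O : ValuationSubring F) (hO : OverK k O) {x ξ : F} (hx : x ∈ O)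
    (hξ : IsInt k x ξ) : ξ ∈ O :=
  a8_mem_of_isIntegralElem _ O (fun p => a8_aeval_mem O hO hx p) hξ

/-- consequence: elements integral over `k[x]` satisfy `(Hξ)`. -/
theorem hxi_of_isInt (ι : F →ₐ[k] LaurentSeries k) (x u : F) (m : ℕ) (hm : 0 < m)
    (hx : (ι x).order = -m) (hu : (ι u).order = 1)
    (hspan : ∀ z : F, ∃ (d : k[X]) (p : Fin m → k[X]), d ≠ 0 ∧
      aeval x d * z = ∑ i, aeval x (p i) * u ^ (i : ℕ))
    (ξ : F) (hξ : IsInt k x ξ) (O : ValuationSubring F) (hO : OverK k O) (hξO : ξ ∉ O) (z : F)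
    (hz : 0 ≤ (ι z).order) : z ∈ O :=
  a8_mem_of_order_nonneg ι x u m hm hx hu hspan O hO
    (fun hxO => hξO (a8_mem_of_isInt O hO hxO hξ)) z hz

/-- an element lying in all valuation subrings over `k` is integral over `k`. -/
theorem a8_isIntegral_of_forall_mem (ξ : F) (h : ∀ O : ValuationSubring F, OverK k O → ξ ∈ O) :
    IsIntegral k ξ := by
  have h1 : ξ ∈ (⨅ V : {V : ValuationSubring F // Set.range (algebraMap k F) ⊆ V.toSubring},
      V.1.toSubring) := by
    rw [Subring.mem_iInf]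
    rintro ⟨V, hV⟩
    exact h V fun c => hV ⟨c, rfl⟩
  rw [iInf_valuationSubring_superset] at h1
  obtain ⟨P, hP, hPξ⟩ : IsIntegral (Subring.closure (Set.range (algebraMap k F))) ξ := h1
  have hcl : Subring.closure (Set.range (algebraMap k F)) = (algebraMap k F).range := by
    rw [← RingHom.coe_range, Subring.closure_eq]
  let g : k →+* Subring.closure (Set.range (algebraMap k F)) :=
    (algebraMap k F).codRestrict _ fun c => Subring.subset_closure ⟨c, rfl⟩
  have hg : Function.Surjective g := by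
    rintro ⟨y, hy⟩
    rw [hcl] at hy
    obtain ⟨c, rfl⟩ := hy
    exact ⟨c, rfl⟩
  obtain ⟨Q, hQ, -, hQm⟩ := Polynomial.lifts_and_natDegree_eq_and_monic
    ((Polynomial.mem_lifts P).mpr (Polynomial.map_surjective g hg P)) hP
  refine ⟨Q, hQm, ?_⟩
  rw [← hQ, eval₂_map] at hPξ
  exact hPξ

/-- consequence `(b1)`: an element integral over `k[x]` without pole at `q = 0` is constant. -/
theorem const_of_isInt (ι : F →ₐ[k] LaurentSeries k) (x u : F) (m : ℕ) (hm : 0 < m)
    (hx : (ι x).order = -m) (hu : (ι u).order = 1)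
    (hspan : ∀ z : F, ∃ (d : k[X]) (p : Fin m → k[X]), d ≠ 0 ∧
      aeval x d * z = ∑ i, aeval x (p i) * u ^ (i : ℕ))
    (ξ : F) (hξ : IsInt k x ξ) (h0 : 0 ≤ (ι ξ).order) : ∃ c : k, ξ = algebraMap k F c := by
  have hint : IsIntegral k ξ := by
    apply a8_isIntegral_of_forall_mem
    intro O hO
    by_cases hxO : x ∈ O
    · exact a8_mem_of_isInt O hO hxO hξ
    · exact a8_mem_of_order_nonneg ι x u m hm hx hu hspan O hO hxO ξ h0
  set c : k := (ι ξ).coeff 0 with hc
  refine ⟨c, ?_⟩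
  by_contra hne
  set y : F := ξ - algebraMap k F c with hy
  have hy0 : y ≠ 0 := sub_ne_zero.mpr hne
  have hyint : IsIntegral k y := hint.sub isIntegral_algebraMap
  -- `y` has positive order
  have hιy : ι y = ι ξ - HahnSeries.single 0 c := by
    rw [hy, map_sub, AlgHom.commutes, ModularCurve.algebraMap_laurentSeries_eq_single]
  have hιy0 : ι y ≠ 0 := by simpa using hy0
  have hord : 0 < (ι y).order := by
    by_contra hcon
    rw [not_lt] at hcon
    have h1 : (ι y).coeff (ι y).order ≠ 0 := mt HahnSeries.coeff_order_eq_zero.1 hιy0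
    apply h1
    rw [hιy] at hcon ⊢
    rw [HahnSeries.coeff_sub]
    rcases hcon.lt_or_eq with hlt | heq
    · rw [HahnSeries.coeff_single_of_ne hlt.ne, sub_zero]
      exact HahnSeries.coeff_eq_zero_of_lt_order (lt_of_lt_of_le hlt h0)
    · rw [heq, HahnSeries.coeff_single_same, hc, sub_self]
  set μ := a8_mu ι with hμ
  have hk : ∀ c : k, c ≠ 0 → μ (algebraMap k F c) = 1 := a8_mu_const ι
  have hμy : μ y < 1 := by
    rw [hμ, a8_mu_eq ι hy0, ← WithZero.exp_zero, WithZero.exp_lt_exp]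
    omega
  have hc0 : (minpoly k y).coeff 0 ≠ 0 := minpoly.coeff_zero_ne_zero hyint hy0
  have h1 : aeval y (minpoly k y) = 0 := minpoly.aeval k y
  rw [← Polynomial.divX_mul_X_add (minpoly k y), map_add, map_mul, aeval_X, aeval_C] at h1
  have h2 : algebraMap k F ((minpoly k y).coeff 0) = -(aeval y (minpoly k y).divX * y) := by
    rw [eq_neg_iff_add_eq_zero, add_comm]
    exact h1
  have h3 := hk _ hc0
  rw [h2, Valuation.map_neg, map_mul] at h3
  have h4 : μ (aeval y (minpoly k y).divX) * μ y < 1 := by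
    calc μ (aeval y (minpoly k y).divX) * μ y ≤ 1 * μ y :=
          mul_le_mul' (a8_val_aeval_le_one μ hk hμy.le _) le_rfl
      _ = μ y := one_mul _
      _ < 1 := hμy
  exact absurd h3 h4.ne

end Main

end Fermat.Agent.GAL.CT
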