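import Fermat.Agent.GAL.CT.TracePoly

/-!
# GAL / CT / ALG-6 : (b1)
-/

set_option autoImplicit false
noncomputable section

namespace Fermat.Agent.GAL.CT

open Polynomial IntermediateField

variable {k : Type*} [Field k]

theorem const_algebraMap_eq_C (a : k) : algebraMap k (LaurentSeries k) a = HahnSeries.C a := by
  have h1 : algebraMap k (PowerSeries k) a = PowerSeries.C a := by simp
  rw [HahnSeries.algebraMap_apply', h1, HahnSeries.ofPowerSeries_C]

theorem const_order_pow {x : LaurentSeries k} (hx : x ≠ 0) (n : ℕ) :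
    (x ^ n).order = n * x.order := by
  induction n with
  | zero => simp
  | succ n ih =>
    rw [pow_succ, HahnSeries.order_mul (pow_ne_zero n hx) hx, ih]
    push_cast; ring

/-- a polynomial in `t` (of order `-1`) without negative coefficients is constant. -/
theorem const_natDegree_eq_zero {t : LaurentSeries k} (ht : t.order = -1) (Q : k[X])
    (h : ∀ n : ℤ, n < 0 → (aeval t Q).coeff n = 0) : Q.natDegree = 0 := by
  by_contra hn
  have ht0 : t ≠ 0 := by
    intro h0
    rw [h0, HahnSeries.order_zero] at ht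
    omega
  have hord : ∀ i : ℕ, (t ^ i).order = -(i : ℤ) := by
    intro i
    rw [const_order_pow ht0, ht]; ring
  have h1 := h (-(Q.natDegree : ℤ)) (by omega)
  rw [Polynomial.aeval_eq_sum_range, HahnSeries.coeff_sum, Finset.sum_eq_single Q.natDegree] at h1
  · rw [Algebra.smul_def, const_algebraMap_eq_C, HahnSeries.C_mul_eq_smul, HahnSeries.coeff_smul,
      smul_eq_mul] at h1
    rcases mul_eq_zero.mp h1 with h2 | h2
    · have hQ : Q ≠ 0 := by
        rintro rfl
        exact hn rfl
      exact (Polynomial.leadingCoeff_ne_zero.mpr hQ) h2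
    · rw [← hord] at h2
      exact HahnSeries.coeff_order_eq_zero.not.mpr (pow_ne_zero _ ht0) h2
  · intro i hi hne
    rw [Algebra.smul_def, const_algebraMap_eq_C, HahnSeries.C_mul_eq_smul, HahnSeries.coeff_smul]
    rw [HahnSeries.coeff_eq_zero_of_lt_order, smul_zero]
    rw [hord]
    have := Finset.mem_range.mp hi
    omega
  · intro hcon
    exact absurd (Finset.mem_range.mpr (Nat.lt_succ_self _)) hcon

theorem const_isIntegralElem_push {R A C : Type*} [CommRing R] [CommRing A] [CommRing C]
    (f : R →+* A) (g : A →+* C) {x : A} (hx : f.IsIntegralElem x) :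
    (g.comp f).IsIntegralElem (g x) := by
  obtain ⟨P, hP, hev⟩ := hx
  exact ⟨P, hP, by rw [← Polynomial.hom_eval₂, hev, map_zero]⟩

theorem const_isIntegralElem_reflect {R A C : Type*} [CommRing R] [CommRing A] [CommRing C]
    (f : R →+* A) (g : A →+* C) (hg : Function.Injective g) {x : A}
    (hx : (g.comp f).IsIntegralElem (g x)) : f.IsIntegralElem x := by
  obtain ⟨P, hP, hev⟩ := hx
  refine ⟨P, hP, hg ?_⟩
  rw [Polynomial.hom_eval₂, hev, map_zero]

/-- an element of an extension field which is integral over an algebraically closed field is a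
constant. -/
theorem const_mem_range_of_isIntegral [IsAlgClosed k] {L : Type*} [Field L] [Algebra k L] {x : L}
    (hx : IsIntegral k x) : ∃ a : k, algebraMap k L a = x := by
  have h1 := IsAlgClosed.degree_eq_one_of_irreducible k (minpoly.irreducible hx)
  exact minpoly.mem_range_of_degree_eq_one k x h1

variable (t : LaurentSeries k) (E : IntermediateField (K0 t) (LaurentSeries k))
  [FiniteDimensional (K0 t) E] [Algebra.IsSeparable (K0 t) E]

/-- ALG-6.  **(b1).**  A function which is integral over `k[t]`, regular at all the branches `σ ≠ ι₀` and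
regular at `ι₀` is constant.

PROOF.  All `σ ψ ∈ OO`, so the coefficients of `∏ σ, (X - σ ψ)` (`Algebra.charpoly`/`minpoly`,
`Algebra.norm_eq_prod_embeddings`-style) are in `k(t) ∩ OO` and integral over `k[t]`, i.e. polynomials `p(t)` without
negative coefficients, i.e. constants.  So `ψ` is algebraic over the algebraically closed field `k`. -/
theorem const_of_regular [IsAlgClosed k] (ht : t.order = -1) (ψ : E)
    (hψ : IntOver t (ψ : LaurentSeries k))
    (h1 : ∀ σ : E →ₐ[K0 t] OmK k, σ ≠ iota0 E → σ ψ ∈ OO k)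
    (h0 : ∀ n : ℤ, n < 0 → (ψ : LaurentSeries k).coeff n = 0) :
    ∃ a : k, (ψ : LaurentSeries k) = HahnSeries.C a := by
  classical
  -- `k[X] → k(t)`
  let f₀ : k[X] →+* K0 t :=
    (aeval (⟨t, mem_adjoin_simple_self k t⟩ : K0 t) : k[X] →ₐ[k] K0 t).toRingHom
  have hfL : (algebraMap (K0 t) (LaurentSeries k)).comp f₀ = evJ t := by
    apply Polynomial.ringHom_ext
    · intro a
      simp only [f₀, evJ, RingHom.comp_apply, AlgHom.toRingHom_eq_coe, RingHom.coe_coe, aeval_C]
      exact (IsScalarTower.algebraMap_apply k (K0 t) (LaurentSeries k) a).symm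
    · simp only [f₀, evJ, RingHom.comp_apply, AlgHom.toRingHom_eq_coe, RingHom.coe_coe, aeval_X]
      rfl
  have hEL : (algebraMap E (LaurentSeries k)).comp (algebraMap (K0 t) E)
      = algebraMap (K0 t) (LaurentSeries k) := rfl
  have hLΩ : (toOm k).comp (algebraMap (K0 t) (LaurentSeries k)) = algebraMap (K0 t) (OmK k) := rfl
  let e : k[X] →+* OmK k := (algebraMap (K0 t) (OmK k)).comp f₀
  -- `ψ` is integral over `k[X]` in `E`
  have hψE : ((algebraMap (K0 t) E).comp f₀).IsIntegralElem ψ := by
    apply const_isIntegralElem_reflect _ (algebraMap E (LaurentSeries k))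
      (algebraMap E (LaurentSeries k)).injective
    rw [← RingHom.comp_assoc, hEL, hfL]
    exact hψ
  have hσint : ∀ σ : E →ₐ[K0 t] OmK k, e.IsIntegralElem (σ ψ) := by
    intro σ
    have h2 := const_isIntegralElem_push _ (σ : E →+* OmK k) hψE
    rw [← RingHom.comp_assoc, AlgHom.comp_algebraMap] at h2
    exact h2
  have hσOO : ∀ σ : E →ₐ[K0 t] OmK k, σ ψ ∈ OO k := by
    intro σ
    by_cases hσ : σ = iota0 E
    · rw [hσ, iota0_apply]
      exact (toOm_mem_OO_iff _).mpr h0
    · exact h1 σ hσ
  -- the minimal polynomial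
  have hAI : Algebra.IsIntegral (K0 t) E := Algebra.IsIntegral.of_finite (K0 t) E
  have hψint : IsIntegral (K0 t) ψ := hAI.isIntegral ψ
  set P := minpoly (K0 t) ψ with hP
  have hPm : P.Monic := minpoly.monic hψint
  have hsplit : (P.map (algebraMap (K0 t) (OmK k))).Splits := IsAlgClosed.splits _
  have hroots : ∀ a ∈ (P.map (algebraMap (K0 t) (OmK k))).roots,
      ∃ σ : E →ₐ[K0 t] OmK k, σ ψ = a := by
    intro a ha
    have ha' : aeval a P = 0 := by
      have := (Polynomial.mem_roots'.mp ha).2
      rwa [Polynomial.IsRoot.def, Polynomial.eval_map_algebraMap] at this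
    exact IntermediateField.exists_algHom_of_splits_of_aeval
      (fun s => ⟨hAI.isIntegral s, IsAlgClosed.splits _⟩) ha'
  -- coefficients are in `OO`
  have hcOO : ∀ n, algebraMap (K0 t) (OmK k) (P.coeff n) ∈ OO k := by
    have h2 := hsplit.mem_lift_of_roots_mem_range (hPm.map _) (algebraMap (OO k) (OmK k)) (by
      intro a ha
      obtain ⟨σ, rfl⟩ := hroots a ha
      exact ⟨⟨_, hσOO σ⟩, rfl⟩)
    intro n
    obtain ⟨y, hy⟩ := (Polynomial.lifts_iff_coeff_lifts _).mp h2 n
    rw [Polynomial.coeff_map] at hy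
    rw [← hy]
    exact y.2
  -- coefficients are integral over `k[t]`
  have hcint : ∀ n, IntOver t ((P.coeff n : K0 t) : LaurentSeries k) := by
    let _ : Algebra k[X] (OmK k) := e.toAlgebra
    have h2 := hsplit.mem_lift_of_roots_mem_range (hPm.map _)
      (algebraMap (integralClosure k[X] (OmK k)) (OmK k)) (by
      intro a ha
      obtain ⟨σ, rfl⟩ := hroots a ha
      exact ⟨⟨_, hσint σ⟩, rfl⟩)
    intro n
    obtain ⟨y, hy⟩ := (Polynomial.lifts_iff_coeff_lifts _).mp h2 n
    rw [Polynomial.coeff_map] at hy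
    have h3 : e.IsIntegralElem (algebraMap (K0 t) (OmK k) (P.coeff n)) := by
      rw [← hy]
      exact y.2
    have h4 := const_isIntegralElem_reflect f₀ (algebraMap (K0 t) (OmK k))
      (algebraMap (K0 t) (OmK k)).injective h3
    have h5 := const_isIntegralElem_push f₀ (algebraMap (K0 t) (LaurentSeries k)) h4
    rw [hfL] at h5
    exact h5
  -- coefficients are constants
  have hconst : ∀ n, P.coeff n ∈ Set.range (algebraMap k (K0 t)) := by
    intro n
    obtain ⟨Q, hQ⟩ := exists_polynomial_of_intOver t ht (P.coeff n) (hcint n)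
    have h2 : ∀ m : ℤ, m < 0 → (aeval t Q).coeff m = 0 := by
      rw [← hQ]
      exact (toOm_mem_OO_iff _).mp (hcOO n)
    have h3 := const_natDegree_eq_zero ht Q h2
    rw [Polynomial.eq_C_of_natDegree_eq_zero h3, aeval_C] at hQ
    refine ⟨Q.coeff 0, Subtype.ext ?_⟩
    rw [hQ]
    exact (IsScalarTower.algebraMap_apply k (K0 t) (LaurentSeries k) _).symm
  obtain ⟨P₀, hP₀, -, hP₀m⟩ := Polynomial.lifts_and_natDegree_eq_and_monic
    ((Polynomial.lifts_iff_coeff_lifts _).mpr hconst) hPm
  have hint : IsIntegral k (ψ : LaurentSeries k) := by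
    refine ⟨P₀, hP₀m, ?_⟩
    have h2 : aeval ψ P = 0 := minpoly.aeval (K0 t) ψ
    have h3 : algebraMap k (LaurentSeries k)
        = ((algebraMap E (LaurentSeries k)).comp (algebraMap (K0 t) E)).comp
          (algebraMap k (K0 t)) := by
      rw [hEL]
      exact IsScalarTower.algebraMap_eq k (K0 t) (LaurentSeries k)
    rw [h3, ← Polynomial.eval₂_map, hP₀]
    have h4 := Polynomial.hom_eval₂ P (algebraMap (K0 t) E) (algebraMap E (LaurentSeries k)) ψ
    rw [← Polynomial.aeval_def, h2, map_zero] at h4
    exact h4.symm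
  obtain ⟨a, ha⟩ := const_mem_range_of_isIntegral hint
  exact ⟨a, by rw [← ha, const_algebraMap_eq_C]⟩

end Fermat.Agent.GAL.CT
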