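import Mathlib
import Fermat.Prelude.Def_ModularCurve_LaurentCoeff
import Fermat.Agent.GAL.KL.Defs
import Fermat.Agent.S28.FieldSetup

/-!
# GAL / CT : definitions of the abstract (characteristic free) layer

`k` a field, `k((q)) = LaurentSeries k`, `Ω = AlgebraicClosure k((q))`,
`OO k` = integral closure of `k[[q]]` in `Ω`, `PP k` = radical of `q · OO k`,
`theta = q d/dq`.

MERGED FILE: this file contains BOTH helper28's definitions (packages CT-ALG-*) and helper40's
definitions `evT`, `KT`, `OverK`, `coeff_theta` (packages CT-A*), which had been overwritten.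
-/

set_option autoImplicit false
noncomputable section

namespace Fermat.Agent.GAL.CT

open Polynomial

/-- coefficientwise base change `ℤ((q)) → R((q))`. -/
def cz (R : Type*) [CommRing R] : LaurentSeries ℤ →+* LaurentSeries R :=
  ModularCurve.coeffMap (Int.castRingHom R)

@[simp] theorem cz_coeff (R : Type*) [CommRing R] (x : LaurentSeries ℤ) (n : ℤ) :
    (cz R x).coeff n = ((x.coeff n : ℤ) : R) := rfl

/-- `q d/dq` on Laurent series. -/
def theta {R : Type*} [CommRing R] (x : LaurentSeries R) : LaurentSeries R :=
  HahnSeries.mk (fun n => (n : R) * x.coeff n)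
    (x.isPWO_support.mono (fun n hn => by
      simp only [Function.mem_support, ne_eq] at hn
      exact fun h => hn (by rw [h, mul_zero])))

@[simp] theorem theta_coeff {R : Type*} [CommRing R] (x : LaurentSeries R) (n : ℤ) :
    (theta x).coeff n = (n : R) * x.coeff n := rfl

theorem coeff_theta {R : Type*} [CommRing R] (f : LaurentSeries R) (n : ℤ) :
    (theta f).coeff n = (n : R) * f.coeff n := rfl

/-! ### definitions of the packages CT-A* (helper40) -/

section ADefs

variable (k : Type*) {F : Type*} [Field k] [Field F] [Algebra k F]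

/-- `k[X] → F`, `X ↦ t`, as a ring homomorphism. -/
noncomputable abbrev evT (t : F) : k[X] →+* F := ((aeval t : k[X] →ₐ[k] F) : k[X] →+* F)

/-- the subfield `k(t)` of `F`. -/
abbrev KT (t : F) : Subfield F := Subfield.closure (Set.range (evT k t))

/-- the valuation subring `O` contains the constants. -/
def OverK (O : ValuationSubring F) : Prop := ∀ c : k, algebraMap k F c ∈ O

end ADefs

section Field

variable (k : Type*) [Field k]

/-- an algebraic closure of `k((q))`. -/
abbrev OmK : Type _ := AlgebraicClosure (LaurentSeries k)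

/-- `k((q)) → Ω`. -/
abbrev toOm : LaurentSeries k →+* OmK k := algebraMap (LaurentSeries k) (OmK k)

/-- the integral closure of `k[[q]]` in `Ω`. -/
def OO : Subalgebra (PowerSeries k) (OmK k) := integralClosure (PowerSeries k) (OmK k)

/-- `q ∈ Ω`. -/
def qq : OmK k := toOm k (HahnSeries.single (1 : ℤ) 1)

/-- the radical of `q · OO`. -/
def PP : Set (OmK k) := {y | ∃ n : ℕ, 0 < n ∧ ∃ w ∈ OO k, y ^ n = qq k * w}

end Field

section Eval

variable {k : Type*} [Field k]

/-- evaluation of polynomials at `X = j`. -/
def evJ (j : LaurentSeries k) : k[X] →+* LaurentSeries k := (aeval j : k[X] →ₐ[k] LaurentSeries k)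

theorem evJ_apply (j : LaurentSeries k) (p : k[X]) : evJ j p = aeval j p := rfl

/-- `x ∈ k((q))` is integral over `k[t]`. -/
def IntOver (t x : LaurentSeries k) : Prop := (evJ t).IsIntegralElem x

open IntermediateField in
/-- `k(t) ⊆ k((q))`. -/
abbrev K0 (t : LaurentSeries k) : IntermediateField k (LaurentSeries k) := k⟮t⟯

/-- the inclusion `E → Ω`. -/
def iota0 {t : LaurentSeries k} (E : IntermediateField (K0 t) (LaurentSeries k)) :
    E →ₐ[K0 t] OmK k :=
  (IsScalarTower.toAlgHom (K0 t) (LaurentSeries k) (OmK k)).comp E.val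

@[simp] theorem iota0_apply {t : LaurentSeries k} (E : IntermediateField (K0 t) (LaurentSeries k))
    (x : E) : iota0 E x = toOm k (x : LaurentSeries k) := rfl

end Eval

end Fermat.Agent.GAL.CT
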