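import Fermat.Agent.GAL.CT.Defs

/-!
# GAL / CT / ALG-1 : the ring `OO k` and its radical ideal `PP k`
-/

set_option autoImplicit false
noncomputable section

namespace Fermat.Agent.GAL.CT

open Polynomial

variable {k : Type*} [Field k]

/-- a Laurent series without negative coefficients is a power series. -/
theorem oopp_exists_powerSeries_iff (x : LaurentSeries k) :
    (∃ f : PowerSeries k, (f : LaurentSeries k) = x) ↔ ∀ n : ℤ, n < 0 → x.coeff n = 0 := by
  constructor
  · rintro ⟨f, rfl⟩ n hn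
    rw [PowerSeries.coeff_coe, if_pos hn]
  · intro h
    refine ⟨PowerSeries.mk fun n => x.coeff n, ?_⟩
    ext n
    rw [PowerSeries.coeff_coe]
    split_ifs with hn
    · exact (h n hn).symm
    · rw [PowerSeries.coeff_mk, Int.natCast_natAbs, abs_of_nonneg (not_lt.1 hn)]

theorem oopp_toOm_injective : Function.Injective (toOm k) := (toOm k).injective

theorem oopp_algebraMap_eq (f : PowerSeries k) :
    algebraMap (PowerSeries k) (OmK k) f = toOm k (f : LaurentSeries k) := by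
  rw [IsScalarTower.algebraMap_apply (PowerSeries k) (LaurentSeries k) (OmK k),
    LaurentSeries.coe_algebraMap]

theorem oopp_coe_mem_OO (f : PowerSeries k) : toOm k (f : LaurentSeries k) ∈ OO k := by
  rw [← oopp_algebraMap_eq]
  exact (OO k).algebraMap_mem f

/-- `OO ∩ k((q)) = k[[q]]` (`k[[q]]` is integrally closed, `IsFractionRing k⟦X⟧ k⸨X⸩`). -/
theorem toOm_mem_OO_iff (x : LaurentSeries k) :
    toOm k x ∈ OO k ↔ ∀ n : ℤ, n < 0 → x.coeff n = 0 := by
  rw [← oopp_exists_powerSeries_iff]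
  constructor
  · intro h
    have h1 : IsIntegral (PowerSeries k) (algebraMap (LaurentSeries k) (OmK k) x) := h
    rw [isIntegral_algebraMap_iff oopp_toOm_injective] at h1
    obtain ⟨f, hf⟩ := IsIntegrallyClosed.isIntegral_iff.mp h1
    exact ⟨f, by rw [← hf, LaurentSeries.coe_algebraMap]⟩
  · rintro ⟨f, rfl⟩
    exact oopp_coe_mem_OO f

theorem mem_OO_of_pow_mem {y : OmK k} {n : ℕ} (hn : 0 < n) (h : y ^ n ∈ OO k) : y ∈ OO k :=
  IsIntegral.of_pow hn h

/-- a root of a monic polynomial with coefficients in `OO` is in `OO`. -/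
theorem mem_OO_of_root {y : OmK k} (p : (OmK k)[X]) (hp : p.Monic) (hc : ∀ i, p.coeff i ∈ OO k)
    (hy : p.eval y = 0) : y ∈ OO k := by
  have hl : p ∈ Polynomial.lifts (algebraMap (OO k) (OmK k)) := by
    rw [Polynomial.lifts_iff_coeff_lifts]
    intro n
    exact ⟨⟨p.coeff n, hc n⟩, rfl⟩
  obtain ⟨q, hq, -, hqm⟩ := Polynomial.lifts_and_natDegree_eq_and_monic hl hp
  have hint : IsIntegral (OO k) y := ⟨q, hqm, by rw [← Polynomial.eval_map, hq, hy]⟩
  have h2 : y ∈ integralClosure (OO k) (OmK k) := hint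
  rw [show OO k = integralClosure (PowerSeries k) (OmK k) from rfl, integralClosure_idem] at h2
  obtain ⟨z, rfl⟩ := Algebra.mem_bot.1 h2
  exact z.2

theorem oopp_qq_eq : qq k = toOm k ((PowerSeries.X : PowerSeries k) : LaurentSeries k) := by
  rw [PowerSeries.coe_X]; rfl

theorem oopp_qq_mem_OO : qq k ∈ OO k := by
  rw [oopp_qq_eq]; exact oopp_coe_mem_OO _

theorem PP_subset_OO {y : OmK k} (hy : y ∈ PP k) : y ∈ OO k := by
  obtain ⟨n, hn, w, hw, h⟩ := hy
  refine mem_OO_of_pow_mem hn ?_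
  rw [h]
  exact (OO k).mul_mem oopp_qq_mem_OO hw

theorem zero_mem_PP : (0 : OmK k) ∈ PP k :=
  ⟨1, one_pos, 0, (OO k).zero_mem, by simp⟩

theorem qq_mem_PP : qq k ∈ PP k :=
  ⟨1, one_pos, 1, (OO k).one_mem, by simp⟩

theorem qq_ne_zero : qq k ≠ 0 := by
  intro h
  have h1 : (HahnSeries.single (1 : ℤ) (1 : k)) = 0 := oopp_toOm_injective (by rw [map_zero]; exact h)
  exact one_ne_zero (HahnSeries.single_eq_zero_iff.1 h1)

/-- the radical of `q · OO` as an ideal of `OO`. -/
def ooppRad (k : Type*) [Field k] : Ideal (OO k) :=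
  (Ideal.span {(⟨qq k, oopp_qq_mem_OO⟩ : OO k)}).radical

theorem oopp_mem_PP_iff {y : OmK k} : y ∈ PP k ↔ ∃ h : y ∈ OO k, (⟨y, h⟩ : OO k) ∈ ooppRad k := by
  constructor
  · intro hy
    refine ⟨PP_subset_OO hy, ?_⟩
    obtain ⟨n, -, w, hw, h⟩ := hy
    refine ⟨n, ?_⟩
    rw [Ideal.mem_span_singleton]
    exact ⟨⟨w, hw⟩, Subtype.ext h⟩
  · rintro ⟨h, n, hn⟩
    rw [Ideal.mem_span_singleton] at hn
    obtain ⟨w, hw⟩ := hn
    refine ⟨n + 1, Nat.succ_pos n, (w : OmK k) * y, (OO k).mul_mem w.2 h, ?_⟩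
    have h1 : y ^ n = qq k * (w : OmK k) := congrArg Subtype.val hw
    rw [pow_succ, h1, mul_assoc]

/-- `PP` is the radical of the ideal `q · OO` of `OO`: closed under addition. -/
theorem PP_add {y z : OmK k} (hy : y ∈ PP k) (hz : z ∈ PP k) : y + z ∈ PP k := by
  rw [oopp_mem_PP_iff] at hy hz ⊢
  obtain ⟨h1, h2⟩ := hy
  obtain ⟨h3, h4⟩ := hz
  exact ⟨(OO k).add_mem h1 h3, (ooppRad k).add_mem h2 h4⟩

theorem PP_neg {y : OmK k} (hy : y ∈ PP k) : -y ∈ PP k := by
  rw [oopp_mem_PP_iff] at hy ⊢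
  obtain ⟨h1, h2⟩ := hy
  exact ⟨(OO k).neg_mem h1, (ooppRad k).neg_mem h2⟩

theorem PP_mul_left {y z : OmK k} (hy : y ∈ OO k) (hz : z ∈ PP k) : y * z ∈ PP k := by
  rw [oopp_mem_PP_iff] at hz ⊢
  obtain ⟨h3, h4⟩ := hz
  exact ⟨(OO k).mul_mem hy h3, (ooppRad k).mul_mem_left ⟨y, hy⟩ h4⟩

theorem PP_sum {ι : Type*} (s : Finset ι) (f : ι → OmK k) (h : ∀ i ∈ s, f i ∈ PP k) :
    ∑ i ∈ s, f i ∈ PP k := by
  classical
  induction s using Finset.induction_on with
  | empty => rw [Finset.sum_empty]; exact zero_mem_PP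
  | insert a s ha ih =>
    rw [Finset.sum_insert ha]
    exact PP_add (h a (Finset.mem_insert_self a s))
      (ih fun i hi => h i (Finset.mem_insert_of_mem hi))

theorem mem_PP_of_pow_mem {y : OmK k} {n : ℕ} (hn : 0 < n) (h : y ^ n ∈ PP k) : y ∈ PP k := by
  obtain ⟨m, hm, w, hw, hh⟩ := h
  exact ⟨n * m, Nat.mul_pos hn hm, w, hw, by rw [pow_mul, hh]⟩

/-- `PP ∩ k((q)) = q k[[q]]`. -/
theorem toOm_mem_PP_iff (x : LaurentSeries k) :
    toOm k x ∈ PP k ↔ ∀ n : ℤ, n ≤ 0 → x.coeff n = 0 := by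
  constructor
  · intro h
    obtain ⟨f, rfl⟩ := (oopp_exists_powerSeries_iff x).2 ((toOm_mem_OO_iff x).1 (PP_subset_OO h))
    obtain ⟨n, hn, w, hw, hh⟩ := h
    -- `w` lies in `k((q))`
    have hw' : w = toOm k ((HahnSeries.single (-1 : ℤ) (1 : k)) * (f : LaurentSeries k) ^ n) := by
      apply mul_left_cancel₀ (qq_ne_zero (k := k))
      rw [← hh, qq, ← map_mul, ← mul_assoc, HahnSeries.single_mul_single, ← map_pow]
      simp
    rw [hw'] at hw
    obtain ⟨g, hg⟩ := (oopp_exists_powerSeries_iff _).2 ((toOm_mem_OO_iff _).1 hw)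
    have h1 : ((PowerSeries.X * g : PowerSeries k) : LaurentSeries k)
        = ((f ^ n : PowerSeries k) : LaurentSeries k) := by
      rw [PowerSeries.coe_mul, PowerSeries.coe_X, hg, ← mul_assoc, HahnSeries.single_mul_single,
        PowerSeries.coe_pow]
      simp
    have h2 : PowerSeries.X * g = f ^ n := HahnSeries.ofPowerSeries_injective h1
    have h3 : PowerSeries.constantCoeff f = 0 := by
      have := congrArg PowerSeries.constantCoeff h2
      rw [map_mul, PowerSeries.constantCoeff_X, zero_mul, map_pow] at this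
      exact pow_eq_zero_iff (Nat.pos_iff_ne_zero.1 hn) |>.1 this.symm
    intro m hm
    rcases lt_or_eq_of_le hm with hm | rfl
    · rw [PowerSeries.coeff_coe, if_pos hm]
    · rw [PowerSeries.coeff_coe, if_neg (lt_irrefl 0)]
      simpa using h3
  · intro h
    refine ⟨1, one_pos, toOm k ((HahnSeries.single (-1 : ℤ) (1 : k)) * x), ?_, ?_⟩
    · rw [toOm_mem_OO_iff]
      intro n hn
      have h5 : ((HahnSeries.single (-1 : ℤ) (1 : k)) * x).coeff ((n + 1) + -1)
          = 1 * x.coeff (n + 1) := HahnSeries.coeff_single_mul_add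
      rw [show (n + 1 : ℤ) + -1 = n by ring, one_mul] at h5
      rw [h5]
      exact h _ (by omega)
    · rw [pow_one, qq, ← map_mul, ← mul_assoc, HahnSeries.single_mul_single]
      simp

/-- a root of a monic polynomial all of whose lower coefficients are in `PP` is in `PP`. -/
theorem mem_PP_of_root {y : OmK k} (p : (OmK k)[X]) (hp : p.Monic) (hd : 0 < p.natDegree)
    (hc : ∀ i, i < p.natDegree → p.coeff i ∈ PP k) (hy : p.eval y = 0) : y ∈ PP k := by
  have hyO : y ∈ OO k := by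
    refine mem_OO_of_root p hp (fun i => ?_) hy
    rcases lt_trichotomy i p.natDegree with h | h | h
    · exact PP_subset_OO (hc i h)
    · rw [h, hp.coeff_natDegree]; exact (OO k).one_mem
    · rw [Polynomial.coeff_eq_zero_of_natDegree_lt h]; exact (OO k).zero_mem
  refine mem_PP_of_pow_mem hd ?_
  rw [Polynomial.eval_eq_sum_range, Finset.sum_range_succ, hp.coeff_natDegree, one_mul] at hy
  rw [eq_neg_of_add_eq_zero_right hy]
  refine PP_neg (PP_sum _ _ fun i hi => ?_)
  rw [mul_comm]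
  exact PP_mul_left ((OO k).pow_mem hyO i) (hc i (Finset.mem_range.1 hi))

/-- a series of order `≥ 0` whose constant coefficient is nonzero is a unit of `OO`. -/
theorem inv_toOm_mem_OO (x : LaurentSeries k) (h : ∀ n : ℤ, n < 0 → x.coeff n = 0)
    (h0 : x.coeff 0 ≠ 0) : (toOm k x)⁻¹ ∈ OO k := by
  obtain ⟨f, rfl⟩ := (oopp_exists_powerSeries_iff x).2 h
  have hc : PowerSeries.constantCoeff f ≠ 0 := by
    rw [PowerSeries.coeff_coe, if_neg (lt_irrefl 0)] at h0
    simpa using h0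
  have hu : IsUnit f := PowerSeries.isUnit_iff_constantCoeff.2 (isUnit_iff_ne_zero.2 hc)
  obtain ⟨g, hg⟩ := hu.exists_right_inv
  have h1 : toOm k (f : LaurentSeries k) * toOm k (g : LaurentSeries k) = 1 := by
    rw [← map_mul, ← PowerSeries.coe_mul, hg, PowerSeries.coe_one, map_one]
  rw [inv_eq_of_mul_eq_one_right h1]
  exact oopp_coe_mem_OO g

end Fermat.Agent.GAL.CT
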