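import Fermat.Agent.GAL.CT.Defs

/-!
# GAL / CT-A5 : the radical trick
-/

set_option autoImplicit false

namespace Fermat.Agent.GAL.CT

open Polynomial

variable {k : Type*} [Field k]

/-- an element `c` of a field `Ω ⊇ R` (`R` integrally closed) which is integral over `R` and
satisfies `e x = e w * c`, `w ≠ 0`, shows that `w ∣ x`. -/
theorem a5_dvd_of_integral {R Ω : Type*} [CommRing R] [IsDomain R] [IsIntegrallyClosed R]
    [Field Ω] (e : R →+* Ω) (he : Function.Injective e) (w x : R) (hw : w ≠ 0) (c : Ω)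
    (hc : e.IsIntegralElem c) (h : e x = e w * c) : w ∣ x := by
  let _ : Algebra R Ω := e.toAlgebra
  have hinj : Function.Injective (Algebra.ofId R Ω) := he
  let φ : FractionRing R →ₐ[R] Ω := IsFractionRing.liftAlgHom hinj
  have hφ : ∀ r : R, φ (algebraMap R (FractionRing R) r) = e r := fun r => φ.commutes r
  have hw' : algebraMap R (FractionRing R) w ≠ 0 := by
    rwa [Ne, IsFractionRing.to_map_eq_zero_iff]
  have hew : e w ≠ 0 := fun h0 => hw (he (by rw [h0, map_zero]))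
  set y : FractionRing R := algebraMap R (FractionRing R) x / algebraMap R (FractionRing R) w
    with hy
  have hφy : φ y = c := by
    rw [hy, map_div₀, hφ, hφ, h, mul_div_cancel_left₀ _ hew]
  have hint : IsIntegral R y := by
    rw [← isIntegral_algHom_iff φ φ.injective, hφy]
    exact hc
  obtain ⟨z, hz⟩ := IsIntegrallyClosed.isIntegral_iff.mp hint
  refine ⟨z, ?_⟩
  apply IsFractionRing.injective R (FractionRing R)
  rw [map_mul, hz, hy, mul_div_cancel₀ _ hw']

theorem dvd_of_sum_radical {Ω J : Type*} [Field Ω] (e : k[X] →+* Ω) (he : Function.Injective e)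
    (W P : k[X]) (hW : Squarefree W) (s : Finset J) (a b : J → Ω) (n : ℕ) (hn : 0 < n)
    (hb : ∀ i ∈ s, e.IsIntegralElem (b i)) (hab : ∀ i ∈ s, a i ^ n = e W * b i)
    (hP : e P = ∑ i ∈ s, a i) : W ∣ P := by
  classical
  let _ : Algebra k[X] Ω := e.toAlgebra
  let S : Subalgebra k[X] Ω := integralClosure k[X] Ω
  have hWS : e W ∈ S := S.algebraMap_mem W
  have hbS : ∀ i ∈ s, b i ∈ S := fun i hi => hb i hi
  have haS : ∀ i ∈ s, a i ∈ S := fun i hi => by
    have h1 : IsIntegral k[X] (a i ^ n) := by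
      rw [hab i hi]
      exact S.mul_mem hWS (hbS i hi)
    exact h1.of_pow hn
  let I : Ideal S := Ideal.span {(⟨e W, hWS⟩ : S)}
  have hrad : ∀ i : s, (⟨a i, haS i i.2⟩ : S) ∈ I.radical := fun i => by
    refine ⟨n, ?_⟩
    have : (⟨a i, haS i i.2⟩ : S) ^ n = ⟨e W, hWS⟩ * ⟨b i, hbS i i.2⟩ :=
      Subtype.ext (hab i i.2)
    rw [this]
    exact I.mul_mem_right _ (Ideal.subset_span rfl)
  have hsum : (∑ i : s, (⟨a i, haS i i.2⟩ : S)) ∈ I.radical :=
    Ideal.sum_mem _ fun i _ => hrad i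
  obtain ⟨N, hN⟩ := hsum
  have hN1 : (∑ i : s, (⟨a i, haS i i.2⟩ : S)) ^ (N + 1) ∈ I := by
    rw [pow_succ]
    exact I.mul_mem_right _ hN
  obtain ⟨c, hc⟩ := Ideal.mem_span_singleton'.mp hN1
  have hval : ((∑ i : s, (⟨a i, haS i i.2⟩ : S) : S) : Ω) = e P := by
    rw [hP, AddSubmonoidClass.coe_finsetSum, ← Finset.sum_coe_sort s a]
  have hc' : e (P ^ (N + 1)) = e W * (c : Ω) := by
    have := congrArg (Subtype.val) hc
    rw [map_pow, ← hval, mul_comm]
    exact this.symm
  have hdvd : W ∣ P ^ (N + 1) :=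
    a5_dvd_of_integral e he W (P ^ (N + 1)) hW.ne_zero (c : Ω) c.2 hc'
  exact (hW.dvd_pow_iff_dvd (Nat.succ_ne_zero N)).mp hdvd

end Fermat.Agent.GAL.CT

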