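import Fermat.Agent.GAL.CT.OOPP
import Fermat.Agent.GAL.CT.Theta

/-!
# GAL / CT / ALG-5 : the abstract residue theorem
-/

set_option autoImplicit false
noncomputable section

namespace Fermat.Agent.GAL.CT

open Polynomial IntermediateField

variable {k : Type*} [Field k]

/-- if the coefficients of `R` of index `≤ 1` vanish and those of `s` of index `< -1` vanish, then
the constant term of `R * s` vanishes. -/
theorem coeff_zero_mul_of_vanish (R s : LaurentSeries k) (hR : ∀ n : ℤ, n ≤ 1 → R.coeff n = 0)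
    (hs : ∀ n : ℤ, n < -1 → s.coeff n = 0) : (R * s).coeff 0 = 0 := by
  rw [HahnSeries.coeff_mul]
  refine Finset.sum_eq_zero fun ij hij => ?_
  rw [Finset.mem_antidiagonal] at hij
  obtain ⟨_, _, hsum⟩ := hij
  by_cases h : ij.1 ≤ 1
  · rw [hR _ h, zero_mul]
  · rw [hs _ (by omega), mul_zero]

/-- the coefficients of `theta t` vanish below the order of `t`. -/
theorem theta_coeff_eq_zero_of_lt_order (t : LaurentSeries k) (n : ℤ) (hn : n < t.order) :
    (theta t).coeff n = 0 := by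
  rw [theta_coeff, HahnSeries.coeff_eq_zero_of_lt_order hn, mul_zero]

/-- if `toOm R = q * w` with `w ∈ PP` then the coefficients of `R` of index `≤ 1` vanish. -/
theorem coeff_eq_zero_of_toOm_eq_qq_mul (R : LaurentSeries k) (w : OmK k) (hw : w ∈ PP k)
    (h : toOm k R = qq k * w) (n : ℤ) (hn : n ≤ 1) : R.coeff n = 0 := by
  set R' : LaurentSeries k := HahnSeries.single (-1 : ℤ) 1 * R with hR'
  have hq : (HahnSeries.single (1 : ℤ) (1 : k)) * HahnSeries.single (-1 : ℤ) (1 : k) = 1 := by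
    rw [HahnSeries.single_mul_single]; simp
  have hRR : R = HahnSeries.single (1 : ℤ) 1 * R' := by
    rw [hR', ← mul_assoc, hq, one_mul]
  have h' : toOm k R' = w := by
    have : qq k * toOm k R' = qq k * w := by
      rw [← h, qq, ← map_mul, ← hRR]
    exact mul_left_cancel₀ qq_ne_zero this
  have h0 := (toOm_mem_PP_iff R').1 (h' ▸ hw) (n - 1) (by omega)
  rw [hRR]
  have : n = (n - 1) + 1 := by ring
  rw [this, HahnSeries.coeff_single_mul_add, h0, mul_zero]

/-- splitting off one term of a sum whose other terms lie in `q · PP`. -/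
theorem exists_sum_eq_add_qq_mul {ι : Type*} [Fintype ι] (i0 : ι) (a b : ι → OmK k)
    (h1 : ∀ σ, σ ≠ i0 → a σ ∈ OO k) (h2 : ∀ σ, σ ≠ i0 → ∃ w ∈ PP k, b σ = qq k * w) :
    ∃ w ∈ PP k, ∑ σ, a σ * b σ = a i0 * b i0 + qq k * w := by
  classical
  choose! w hwP hw using h2
  refine ⟨∑ σ ∈ Finset.univ.erase i0, a σ * w σ, PP_sum _ _ fun σ hσ =>
    PP_mul_left (h1 σ (Finset.ne_of_mem_erase hσ)) (hwP σ (Finset.ne_of_mem_erase hσ)), ?_⟩
  rw [← Finset.add_sum_erase Finset.univ (fun σ => a σ * b σ) (Finset.mem_univ i0), Finset.mul_sum]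
  congr 1
  refine Finset.sum_congr rfl fun σ hσ => ?_
  rw [hw σ (Finset.ne_of_mem_erase hσ)]
  ring

variable (t : LaurentSeries k) (E : IntermediateField (K0 t) (LaurentSeries k))
  [FiniteDimensional (K0 t) E] [Algebra.IsSeparable (K0 t) E]

/-- ALG-5.  **Abstract residue theorem.**

PROOF.  `toOm (Tr (ψ y)) = ∑ σ, σ (ψ y)` (`Algebra.trace_eq_sum_embeddings`), so
`R := Tr (ψ y) - ψ y ∈ k((q))` satisfies `toOm R = ∑_{σ ≠ ι₀} σ ψ * σ y ∈ q · PP`, i.e. all coefficients of `R` of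
index `≤ 1` vanish (`toOm_mem_PP_iff`); `θ t` has order `≥ -1`; so `CT (R θt) = 0`; and
`CT (P(t) θt) = 0` by `coeff_zero_aeval_mul_theta`. -/
theorem coeff_zero_of_trace (tZ : LaurentSeries ℤ) (htZ : t = cz k tZ) (ht : t.order = -1) (ψ y : E)
    (h1 : ∀ σ : E →ₐ[K0 t] OmK k, σ ≠ iota0 E → σ ψ ∈ OO k)
    (h2 : ∀ σ : E →ₐ[K0 t] OmK k, σ ≠ iota0 E → ∃ w ∈ PP k, σ y = qq k * w)
    (h3 : ∃ P : k[X], ((Algebra.trace (K0 t) E (ψ * y) : K0 t) : LaurentSeries k) = aeval t P) :
    ((ψ : LaurentSeries k) * (y : LaurentSeries k) * theta t).coeff 0 = 0 := by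
  obtain ⟨P, hP⟩ := h3
  have htr := trace_eq_sum_embeddings (K := K0 t) (L := E) (OmK k) (x := ψ * y)
  have hT : algebraMap (K0 t) (OmK k) (Algebra.trace (K0 t) E (ψ * y)) =
      toOm k ((Algebra.trace (K0 t) E (ψ * y) : K0 t) : LaurentSeries k) := rfl
  obtain ⟨w, hwP, hw⟩ := exists_sum_eq_add_qq_mul (iota0 E) (fun σ => σ ψ) (fun σ => σ y) h1 h2
  simp only [map_mul] at htr
  rw [hT, hP, hw] at htr
  set R : LaurentSeries k := aeval t P - (ψ : LaurentSeries k) * (y : LaurentSeries k) with hR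
  have hRw : toOm k R = qq k * w := by
    rw [hR, map_sub, htr, iota0_apply, iota0_apply, map_mul, add_sub_cancel_left]
  have hR0 : (R * theta t).coeff 0 = 0 :=
    coeff_zero_mul_of_vanish R (theta t) (coeff_eq_zero_of_toOm_eq_qq_mul R _ hwP hRw)
      (fun n hn => theta_coeff_eq_zero_of_lt_order t n (by rw [ht]; exact hn))
  have hP0 : (aeval t P * theta t).coeff 0 = 0 := by
    rw [htZ]; exact coeff_zero_aeval_mul_theta tZ P
  have : (ψ : LaurentSeries k) * (y : LaurentSeries k) * theta t =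
      aeval t P * theta t - R * theta t := by
    rw [hR]; ring
  rw [this, HahnSeries.coeff_sub, hP0, hR0, sub_zero]

end Fermat.Agent.GAL.CT
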