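import Fermat.Agent.GAL.CT.OOPP

/-!
# GAL / CT / ALG-3 : roots of a polynomial of "one pole" shape
-/

set_option autoImplicit false
noncomputable section

namespace Fermat.Agent.GAL.CT

open Polynomial

variable {k : Type*} [Field k]

/-- "one pole shape": `P = Y^d + ∑_{i ≥ 1} e_i(X) Y^(d-i)` with `e_i = 0` or `deg e_i + i ≤ m + 1`. -/
def OnePole (P : (k[X])[X]) (m : ℕ) : Prop :=
  P.Monic ∧ ∀ i, i < P.natDegree → P.coeff i = 0 ∨ (P.coeff i).natDegree + (P.natDegree - i) ≤ m + 1

/-! ### the predicate "order `≥ N`" -/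

/-- all coefficients of index `< N` vanish. -/
def VanBelow (N : ℤ) (x : LaurentSeries k) : Prop := ∀ n : ℤ, n < N → x.coeff n = 0

theorem VanBelow.mono {N N' : ℤ} {x : LaurentSeries k} (h : VanBelow N x) (hN : N' ≤ N) :
    VanBelow N' x := fun n hn => h n (lt_of_lt_of_le hn hN)

theorem VanBelow.zero (N : ℤ) : VanBelow N (0 : LaurentSeries k) := fun _ _ => rfl

theorem VanBelow.add {N : ℤ} {x y : LaurentSeries k} (hx : VanBelow N x) (hy : VanBelow N y) :
    VanBelow N (x + y) := fun n hn => by rw [HahnSeries.coeff_add, hx n hn, hy n hn, add_zero]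

theorem VanBelow.neg {N : ℤ} {x : LaurentSeries k} (hx : VanBelow N x) :
    VanBelow N (-x) := fun n hn => by rw [HahnSeries.coeff_neg, hx n hn, neg_zero]

theorem VanBelow.sub {N : ℤ} {x y : LaurentSeries k} (hx : VanBelow N x) (hy : VanBelow N y) :
    VanBelow N (x - y) := fun n hn => by rw [HahnSeries.coeff_sub, hx n hn, hy n hn, sub_zero]

theorem VanBelow.mul {a b : ℤ} {x y : LaurentSeries k} (hx : VanBelow a x) (hy : VanBelow b y) :
    VanBelow (a + b) (x * y) := fun n hn => by
  rw [HahnSeries.coeff_mul]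
  refine Finset.sum_eq_zero fun ij hij => ?_
  rw [Finset.mem_antidiagonal] at hij
  obtain ⟨_, _, hsum⟩ := hij
  by_cases h : ij.1 < a
  · rw [hx _ h, zero_mul]
  · rw [hy _ (by omega), mul_zero]

theorem VanBelow.one : VanBelow 0 (1 : LaurentSeries k) := fun n hn => by
  rw [HahnSeries.coeff_one, if_neg (ne_of_lt hn)]

theorem VanBelow.pow {a : ℤ} {x : LaurentSeries k} (hx : VanBelow a x) (n : ℕ) :
    VanBelow (n * a) (x ^ n) := by
  induction n with
  | zero => simpa using VanBelow.one
  | succ n ih =>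
    rw [pow_succ]
    have : ((n + 1 : ℕ) : ℤ) * a = n * a + a := by push_cast; ring
    rw [this]
    exact ih.mul hx

theorem VanBelow.of_order (x : LaurentSeries k) : VanBelow x.order x :=
  fun _ hn => HahnSeries.coeff_eq_zero_of_lt_order hn

theorem VanBelow.algebraMap (c : k) : VanBelow 0 (algebraMap k (LaurentSeries k) c) := by
  intro n hn
  rw [HahnSeries.algebraMap_apply']
  exact (PowerSeries.coeff_coe _ n).trans (if_pos hn)

theorem VanBelow.sum {ι : Type*} (s : Finset ι) (f : ι → LaurentSeries k) (N : ℤ)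
    (h : ∀ i ∈ s, VanBelow N (f i)) : VanBelow N (∑ i ∈ s, f i) := by
  classical
  induction s using Finset.induction_on with
  | empty => simpa using VanBelow.zero N
  | insert a s ha ih =>
    rw [Finset.sum_insert ha]
    exact (h a (Finset.mem_insert_self a s)).add
      (ih fun i hi => h i (Finset.mem_insert_of_mem hi))

theorem VanBelow.inv {h : LaurentSeries k} (hh : h ≠ 0) : VanBelow (-h.order) h⁻¹ := by
  have h1 : h.order + (h⁻¹).order = 0 := by
    rw [← HahnSeries.order_mul hh (inv_ne_zero hh), mul_inv_cancel₀ hh, HahnSeries.order_one]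
  have : -h.order = (h⁻¹).order := by omega
  rw [this]
  exact VanBelow.of_order _

/-- order of `e(j)`: if `j` has order `-1` then the coefficients of `e(j)` vanish below `-deg e`. -/
theorem coeff_evJ_eq_zero (j : LaurentSeries k) (hj : j.order = -1) (e : k[X]) (n : ℤ)
    (hn : n < -(e.natDegree : ℤ)) : (evJ j e).coeff n = 0 := by
  have hV : VanBelow (-(e.natDegree : ℤ)) (evJ j e) := by
    rw [evJ_apply, aeval_eq_sum_range]
    refine VanBelow.sum _ _ _ fun i hi => ?_
    rw [Algebra.smul_def]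
    have h1 : VanBelow (i * (-1)) (j ^ i) := (hj ▸ VanBelow.of_order j).pow i
    have h2 := (VanBelow.algebraMap (e.coeff i)).mul h1
    refine h2.mono ?_
    have := Finset.mem_range.1 hi
    omega
  exact hV n hn

theorem ne_zero_of_order_neg {h : LaurentSeries k} {m : ℕ} (hm : 0 < m)
    (hh : h.order = -(m : ℤ)) : h ≠ 0 := by
  rintro rfl
  rw [HahnSeries.order_zero] at hh
  omega

/-- the coefficients of `P(j, Y)`. -/
theorem OnePole.vanBelow {P : (k[X])[X]} {m : ℕ} (hP : OnePole P m) (j : LaurentSeries k)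
    (hj : j.order = -1) (i : ℕ) (hi : i < P.natDegree) :
    VanBelow ((P.natDegree : ℤ) - i - m - 1) ((P.map (evJ j)).coeff i) := by
  rw [coeff_map]
  rcases hP.2 i hi with h0 | h0
  · rw [h0, map_zero]; exact VanBelow.zero _
  · intro n hn
    refine coeff_evJ_eq_zero j hj _ n ?_
    omega

/-- **Factorisation.**  `P(j, Y) = (Y - h) Q₀(Y)`, `Q₀ = Y^(d-1) + ∑_{i ≥ 1} b_i Y^(d-1-i)` with `b_i ∈ q^i k[[q]]`.
(`b_0 = 1`, `e_i = b_i - h b_(i-1)`, `b_d = 0`; downward induction `b_(i-1) = (b_i - e_i)/h`: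
`ord b_(i-1) ≥ min (i, -(m+1-i)) + m ≥ i - 1`.) -/
theorem exists_factor (j h : LaurentSeries k) (hj : j.order = -1) (m : ℕ) (hm : 0 < m)
    (hh : h.order = -(m : ℤ)) (P : (k[X])[X]) (hP : OnePole P m)
    (hroot : (P.map (evJ j)).eval h = 0) :
    ∃ Q : (LaurentSeries k)[X], Q.Monic ∧ P.map (evJ j) = (X - C h) * Q ∧
      ∀ i, i < Q.natDegree → ∀ n : ℤ, n < ((Q.natDegree - i : ℕ) : ℤ) → (Q.coeff i).coeff n = 0 := by
  have hh0 : h ≠ 0 := ne_zero_of_order_neg hm hh
  set p := P.map (evJ j) with hp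
  have hpm : p.Monic := hP.1.map _
  have hpd : p.natDegree = P.natDegree := hP.1.natDegree_map _
  set Q := p /ₘ (X - C h) with hQ
  have hfac : p = (X - C h) * Q := (mul_divByMonic_eq_iff_isRoot.2 hroot).symm
  have hQm : Q.Monic := (monic_X_sub_C h).of_mul_monic_left (hfac ▸ hpm)
  have hQd : Q.natDegree + 1 = P.natDegree := by
    rw [← hpd, hfac, (monic_X_sub_C h).natDegree_mul hQm, natDegree_X_sub_C, add_comm]
  have hinv : VanBelow (m : ℤ) h⁻¹ := by
    have := VanBelow.inv hh0
    rwa [hh, neg_neg] at this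
  have hc0 : p.coeff 0 = -(h * Q.coeff 0) := by
    rw [hfac, sub_mul, coeff_sub, coeff_C_mul, mul_comm X, coeff_mul_X_zero, zero_sub]
  have hcs : ∀ i, p.coeff (i + 1) = Q.coeff i - h * Q.coeff (i + 1) := fun i => by
    conv_lhs => rw [hfac, sub_mul, coeff_sub, coeff_C_mul, coeff_X_mul]
  have key : ∀ i, i < P.natDegree → VanBelow ((P.natDegree : ℤ) - 1 - i) (Q.coeff i) := by
    intro i
    induction i with
    | zero =>
      intro hi
      have e : Q.coeff 0 = -(p.coeff 0) * h⁻¹ := by
        rw [hc0]; field_simp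
      rw [e]
      refine ((hP.vanBelow j hj 0 hi).neg.mul hinv).mono ?_
      push_cast; omega
    | succ i ih =>
      intro hi
      have e : Q.coeff (i + 1) = (Q.coeff i - p.coeff (i + 1)) * h⁻¹ := by
        rw [hcs]; field_simp; ring
      rw [e]
      have h1 := ih (by omega)
      have h2 := hP.vanBelow j hj (i + 1) hi
      refine (((h1.mono ?_).sub h2).mul hinv).mono ?_
      · push_cast; omega
      · push_cast; omega
  refine ⟨Q, hQm, hfac, fun i hi n hn => key i (by omega) n ?_⟩
  omega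

/-- roots of a monic polynomial whose `i`-th coefficient from the top lies in `q^i k[[q]]`
lie in `q · OO`. -/
theorem exists_eq_qq_mul_of_root (Q : (LaurentSeries k)[X]) (hQm : Q.Monic)
    (hQ : ∀ i, i < Q.natDegree → ∀ n : ℤ, n < ((Q.natDegree - i : ℕ) : ℤ) →
      (Q.coeff i).coeff n = 0) (y : OmK k) (hy : (Q.map (toOm k)).eval y = 0) :
    ∃ w ∈ OO k, y = qq k * w := by
  set s : LaurentSeries k := HahnSeries.single (-1 : ℤ) 1 with hs
  have hq : (HahnSeries.single (1 : ℤ) (1 : k)) * s = 1 := by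
    rw [hs, HahnSeries.single_mul_single]; simp
  have hsV : VanBelow (-1) s := by
    intro n hn
    rw [hs, HahnSeries.coeff_single_of_ne (ne_of_lt hn)]
  refine ⟨toOm k s * y, ?_, ?_⟩
  · refine mem_OO_of_root ((Q.scaleRoots s).map (toOm k)) (((monic_scaleRoots_iff s).2 hQm).map _)
      (fun i => ?_) ?_
    · rw [coeff_map, coeff_scaleRoots, toOm_mem_OO_iff]
      rcases lt_trichotomy i Q.natDegree with hi | hi | hi
      · have h1 : VanBelow ((Q.natDegree - i : ℕ) : ℤ) (Q.coeff i) := hQ i hi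
        have h2 := h1.mul (hsV.pow (Q.natDegree - i))
        exact h2.mono (by omega)
      · rw [hi, hQm.coeff_natDegree, Nat.sub_self, pow_zero, mul_one]
        exact VanBelow.one
      · rw [coeff_eq_zero_of_natDegree_lt hi, zero_mul]
        exact VanBelow.zero 0
    · rw [eval_map]
      refine scaleRoots_eval₂_eq_zero _ ?_
      rwa [eval_map] at hy
  · rw [← mul_assoc, qq, ← map_mul, hq, map_one, one_mul]

/-- every root of `P(j, Y)` in `Ω` other than `h` lies in `q · OO`. -/
theorem root_eq_or_mem (j h : LaurentSeries k) (hj : j.order = -1) (m : ℕ) (hm : 0 < m)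
    (hh : h.order = -(m : ℤ)) (P : (k[X])[X]) (hP : OnePole P m)
    (hroot : (P.map (evJ j)).eval h = 0) (y : OmK k)
    (hy : ((P.map (evJ j)).map (toOm k)).eval y = 0) :
    y = toOm k h ∨ ∃ w ∈ OO k, y = qq k * w := by
  obtain ⟨Q, hQm, hfac, hQ⟩ := exists_factor j h hj m hm hh P hP hroot
  rw [hfac, Polynomial.map_mul, eval_mul, mul_eq_zero] at hy
  rcases hy with hy | hy
  · left
    rw [Polynomial.map_sub, map_X, map_C, eval_sub, eval_X, eval_C, sub_eq_zero] at hy
    exact hy
  · right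
    exact exists_eq_qq_mul_of_root Q hQm hQ y hy

/-- `h` is a simple root. -/
theorem root_simple (j h : LaurentSeries k) (hj : j.order = -1) (m : ℕ) (hm : 0 < m)
    (hh : h.order = -(m : ℤ)) (P : (k[X])[X]) (hP : OnePole P m)
    (hroot : (P.map (evJ j)).eval h = 0) : (derivative (P.map (evJ j))).eval h ≠ 0 := by
  obtain ⟨Q, hQm, hfac, hQ⟩ := exists_factor j h hj m hm hh P hP hroot
  have hh0 : h ≠ 0 := ne_zero_of_order_neg hm hh
  intro h0
  rw [hfac, derivative_mul, eval_add, eval_mul, eval_mul, derivative_sub, derivative_X,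
    derivative_C, sub_zero, eval_one, one_mul, eval_sub, eval_X, eval_C, sub_self, zero_mul,
    add_zero] at h0
  have hy : (Q.map (toOm k)).eval (toOm k h) = 0 := by
    rw [eval_map, eval₂_hom, h0, map_zero]
  obtain ⟨w, hw, e⟩ := exists_eq_qq_mul_of_root Q hQm hQ _ hy
  have hmem : toOm k h ∈ OO k := by
    rw [e]
    exact (OO k).mul_mem (PP_subset_OO qq_mem_PP) hw
  have := (toOm_mem_OO_iff h).1 hmem h.order (by rw [hh]; omega)
  exact hh0 (HahnSeries.coeff_order_eq_zero.1 this)

end Fermat.Agent.GAL.CT
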