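import Fermat.Agent.GAL.CT.Theta
import Fermat.Agent.GAL.CT.UniquePole

/-!
# GAL / CT-A7 : a subfield of `k((q))` algebraic over `k(t)`, `ord_q t = -1`, `k` perfect,
is separable over `k(t)`
-/

set_option autoImplicit false

namespace Fermat.Agent.GAL.CT

open Polynomial Fermat.Agent.GAL.KL Fermat.Agent.S28

variable {k F : Type*} [Field k] [Field F] [Algebra k F]

theorem a7_theta_sum {R J : Type*} [CommRing R] (s : Finset J) (f : J → LaurentSeries R) :
    theta (∑ i ∈ s, f i) = ∑ i ∈ s, theta (f i) := by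
  classical
  induction s using Finset.induction_on with
  | empty => simp [theta_zero]
  | insert i s hi ih => rw [Finset.sum_insert hi, Finset.sum_insert hi, theta_add, ih]

/-- `t` is transcendental over `k`. -/
theorem a7_aeval_ne_zero (ι : F →ₐ[k] LaurentSeries k) (t : F) (ht : (ι t).order = -1)
    {P : k[X]} (hP : P ≠ 0) : aeval t P ≠ 0 := by
  have ht0 : t ≠ 0 := by
    rintro rfl
    rw [map_zero, HahnSeries.order_zero] at ht
    omega
  have h1 : 1 < a8_mu ι t := by
    rw [a8_mu_eq ι ht0, ht, ← WithZero.exp_zero, WithZero.exp_lt_exp]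
    omega
  have h2 := a8_val_aeval_eq (a8_mu ι) (a8_mu_const ι) h1 hP
  intro h0
  rw [h0, map_zero] at h2
  exact (pow_ne_zero _ (zero_lt_one.trans h1).ne') h2.symm

theorem a7_aeval_mem (t : F) (P : k[X]) : aeval t P ∈ KT k t :=
  Subfield.subset_closure ⟨P, rfl⟩

/-- `d/dt` on `k(t)`. -/
theorem a7_exists_deriv (ι : F →ₐ[k] LaurentSeries k) (t : F) {c : F} (hc : c ∈ KT k t) :
    ∃ c' ∈ KT k t, theta (ι c) = ι c' * theta (ι t) := by
  induction hc using Subfield.closure_induction with
  | mem x hx =>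
    obtain ⟨P, rfl⟩ := hx
    refine ⟨aeval t (derivative P), a7_aeval_mem t _, ?_⟩
    show theta (ι (aeval t P)) = _
    rw [← Polynomial.aeval_algHom_apply, ← Polynomial.aeval_algHom_apply, theta_aeval]
  | one => exact ⟨0, zero_mem _, by rw [map_one, theta_one, map_zero, zero_mul]⟩
  | add x y _ _ hx hy =>
    obtain ⟨x', hx', hx⟩ := hx
    obtain ⟨y', hy', hy⟩ := hy
    exact ⟨x' + y', add_mem hx' hy', by rw [map_add, theta_add, hx, hy, map_add, add_mul]⟩
  | neg x _ hx =>
    obtain ⟨x', hx', hx⟩ := hx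
    exact ⟨-x', neg_mem hx', by rw [map_neg, a0_theta_neg, hx, map_neg, neg_mul]⟩
  | inv x hxm hx =>
    obtain ⟨x', hx', hx⟩ := hx
    refine ⟨-x' * x⁻¹ ^ 2, mul_mem (neg_mem hx') (pow_mem (inv_mem hxm) 2), ?_⟩
    rw [map_inv₀, theta_inv, hx, map_mul, map_neg, map_pow, map_inv₀]
    ring
  | mul x y hxm hym hx hy =>
    obtain ⟨x', hx', hx⟩ := hx
    obtain ⟨y', hy', hy⟩ := hy
    refine ⟨x' * y + x * y', add_mem (mul_mem hx' hym) (mul_mem hxm hy'), ?_⟩
    rw [map_mul, theta_mul, hx, hy, map_add, map_mul, map_mul]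
    ring

/-- elements of `k(t)` with vanishing derivative are `p`-th powers. -/
theorem a7_exists_pow [PerfectField k] (p : ℕ) [hp : Fact p.Prime] [CharP k p]
    (ι : F →ₐ[k] LaurentSeries k) (t : F) (ht : (ι t).order = -1) {c : F} (hc : c ∈ KT k t)
    (h0 : theta (ι c) = 0) : ∃ b ∈ KT k t, b ^ p = c := by
  have hcl : Subring.closure (Set.range (evT k t)) = (evT k t).range := by
    rw [← RingHom.coe_range, Subring.closure_eq]
  obtain ⟨y, hy, z, hz, rfl⟩ := Subfield.mem_closure_iff.mp hc
  rw [hcl] at hy hz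
  obtain ⟨P, rfl⟩ := hy
  obtain ⟨Q, rfl⟩ := hz
  change theta (ι (aeval t P / aeval t Q)) = 0 at h0
  show ∃ b ∈ KT k t, b ^ p = aeval t P / aeval t Q
  by_cases hQ : aeval t Q = 0
  · exact ⟨0, zero_mem _, by rw [hQ, div_zero, zero_pow hp.out.ne_zero]⟩
  obtain ⟨p', hp'⟩ : ∃ p', p = p' + 1 := ⟨p - 1, by have := hp.out.pos; omega⟩
  set R : k[X] := P * Q ^ p' with hR
  have hRc : aeval t R = aeval t P / aeval t Q * aeval t Q ^ p := by
    rw [hR, map_mul, map_pow, hp', pow_succ]
    field_simp
  have hθR : theta (ι (aeval t R)) = 0 := by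
    rw [hRc, map_mul, map_pow, theta_mul, h0, theta_pow_char p, zero_mul, mul_zero, add_zero]
  rw [← Polynomial.aeval_algHom_apply, theta_aeval] at hθR
  have hθt := (theta_ne_zero_of_order (ι t) ht).1
  have hder : derivative R = 0 := by
    by_contra hne
    have h1 := a7_aeval_ne_zero ι t ht hne
    have h2 : aeval (ι t) (derivative R) ≠ 0 := by
      rw [Polynomial.aeval_algHom_apply]
      simpa using h1
    exact (mul_ne_zero h2 hθt) hθR
  have hexp : expand k p (contract p R) = R := expand_contract p hder hp.out.ne_zero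
  set S₀ : k[X] := (contract p R).map ((frobeniusEquiv k p).symm : k →+* k) with hS₀
  have hS : S₀.map (frobenius k p) = contract p R := by
    rw [hS₀, Polynomial.map_map]
    have : (frobenius k p).comp ((frobeniusEquiv k p).symm : k →+* k) = RingHom.id k := by
      ext x
      simp
    rw [this, Polynomial.map_id]
  have hRS : R = S₀ ^ p := by
    rw [← map_frobenius_expand, map_expand, hS, hexp]
  refine ⟨aeval t S₀ / aeval t Q, div_mem (a7_aeval_mem t _) (a7_aeval_mem t _), ?_⟩
  rw [div_pow, ← map_pow, ← hRS, hRc]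
  field_simp

theorem a7_separable [PerfectField k] (p : ℕ) [hp : Fact p.Prime] [CharP k p]
    (ι : F →ₐ[k] LaurentSeries k) (t : F) (ht : (ι t).order = -1)
    (z : F) (hz : IsIntegral (KT k t) z) : (minpoly (KT k t) z).Separable := by
  have hF : CharP F p := charP_of_injective_algebraMap (algebraMap k F).injective p
  have hK : CharP (KT k t) p := (RingHom.charP_iff (KT k t).subtype (KT k t).subtype_injective p).mpr hF
  have hθt := (theta_ne_zero_of_order (ι t) ht).1
  rcases separable_or p (minpoly.irreducible hz) with h | ⟨-, g, hg, hgf⟩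
  · exact h
  exfalso
  have hgm : g.Monic := (monic_expand_iff hp.out.pos).mp (hgf ▸ minpoly.monic hz)
  have hgz : aeval (z ^ p) g = 0 := by
    rw [← expand_aeval, hgf, minpoly.aeval]
  have hgmin : g = minpoly (KT k t) (z ^ p) := minpoly.eq_of_irreducible_of_monic hg hgz hgm
  set n := g.natDegree with hn
  -- the derivative of the coefficients
  choose D hD using fun c : KT k t => a7_exists_deriv ι t c.2
  have hD1 : ∀ c : KT k t, D c = 0 → theta (ι (c : F)) = 0 := by
    intro c hc
    rw [(hD c).2, hc, map_zero, zero_mul]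
  have hDn : D (g.coeff n) = 0 := by
    have h1 := (hD (g.coeff n)).2
    have h2 : g.coeff n = 1 := hgm.coeff_natDegree
    rw [h2] at h1 ⊢
    have h3 : theta (ι (((1 : KT k t) : F))) = 0 := by
      rw [show (((1 : KT k t) : F)) = 1 from rfl, map_one, theta_one]
    rw [h3] at h1
    have h4 := (mul_eq_zero.mp h1.symm).resolve_right hθt
    simpa using h4
  have hrel : ∑ j ∈ Finset.range (n + 1), D (g.coeff j) * (z ^ p) ^ j = 0 := by
    have h1 : ∑ j ∈ Finset.range (n + 1), ((g.coeff j : KT k t) : F) * (z ^ p) ^ j = 0 := by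
      rw [← hgz, aeval_eq_sum_range]
      rfl
    have h2 := congrArg (fun y => theta (ι y)) h1
    simp only [map_sum, map_zero, theta_zero, a7_theta_sum] at h2
    have h3 : ∀ j, theta (ι (((g.coeff j : KT k t) : F) * (z ^ p) ^ j))
        = ι (D (g.coeff j) * (z ^ p) ^ j) * theta (ι t) := by
      intro j
      have h4 : ι ((z ^ p) ^ j) = (ι z ^ j) ^ p := by
        rw [map_pow, map_pow, ← pow_mul, ← pow_mul, mul_comm]
      rw [map_mul, theta_mul, h4, theta_pow_char p, mul_zero, add_zero, (hD (g.coeff j)).2, map_mul,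
        h4]
      ring
    simp only [h3, ← Finset.sum_mul, ← map_sum] at h2
    have h5 := (mul_eq_zero.mp h2).resolve_right hθt
    exact (map_eq_zero_iff ι ι.toRingHom.injective).mp h5
  rw [Finset.sum_range_succ, hDn, zero_mul, add_zero] at hrel
  have hlin := linearIndependent_pow (K := KT k t) (z ^ p)
  rw [← hgmin, ← hn] at hlin
  have hzero : ∀ j : Fin n, (⟨D (g.coeff j), (hD (g.coeff j)).1⟩ : KT k t) = 0 := by
    apply Fintype.linearIndependent_iff.mp hlin
    rw [← hrel, Finset.sum_range]
    rfl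
  have hall : ∀ j, theta (ι ((g.coeff j : KT k t) : F)) = 0 := by
    intro j
    rcases lt_trichotomy j n with hj | hj | hj
    · exact hD1 _ (congrArg Subtype.val (hzero ⟨j, hj⟩))
    · rw [hj]; exact hD1 _ hDn
    · rw [coeff_eq_zero_of_natDegree_lt hj]
      rw [show (((0 : KT k t) : F)) = 0 from rfl, map_zero, theta_zero]
  have hlift : g ∈ lifts (frobenius (KT k t) p) := by
    rw [lifts_iff_coeff_lifts]
    intro j
    obtain ⟨b, hb, hbp⟩ := a7_exists_pow p ι t ht (g.coeff j).2 (hall j)
    exact ⟨⟨b, hb⟩, Subtype.ext hbp⟩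
  obtain ⟨G, hG⟩ := (mem_lifts g).mp hlift
  have hfin : minpoly (KT k t) z = G ^ p := by
    rw [← hgf, ← hG, ← map_expand, map_frobenius_expand]
  have hirr := minpoly.irreducible hz
  rw [hfin] at hirr
  exact not_irreducible_pow hp.out.ne_one hirr

theorem isSeparable_of_order [PerfectField k] (ι : F →ₐ[k] LaurentSeries k) (t : F)
    (ht : (ι t).order = -1) (halg : Algebra.IsAlgebraic (KT k t) F) :
    Algebra.IsSeparable (KT k t) F := by
  obtain ⟨p, hp⟩ := CharP.exists k
  rcases CharP.char_is_prime_or_zero k p with hpp | rfl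
  · have : Fact p.Prime := ⟨hpp⟩
    exact ⟨fun z => a7_separable p ι t ht z (halg.isAlgebraic z).isIntegral⟩
  · have h0 : CharZero k := CharP.charP_to_charZero k
    have h1 : CharZero F := charZero_of_injective_algebraMap (algebraMap k F).injective
    have h2 : CharZero (KT k t) :=
      ⟨fun a b hab => Nat.cast_injective (R := F) (by
        have := congrArg Subtype.val hab
        simpa using this)⟩
    infer_instance

end Fermat.Agent.GAL.CT
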