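import Fermat.Agent.GAL.CT.Defs
import Fermat.Agent.S28.FieldSetup

/-!
# GAL / CT-A1 : the sum of the conjugates of an integral element lies in the base ring
(separable case; characteristic free copy of `S28.finite_Emb`, `S28.exists_trace`)
-/

set_option autoImplicit false
noncomputable section

namespace Fermat.Agent.GAL.CT

open Polynomial Fermat.Agent.S28

section A1abstract

variable {A K L E : Type*} [CommRing A] [IsIntegrallyClosed A] [Field K]
  [Algebra A K] [IsFractionRing A K] [Field L] [Algebra K L] [Algebra A L] [IsScalarTower A K L]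
  [FiniteDimensional K L] [Algebra.IsSeparable K L] [Field E] [IsAlgClosed E] [Algebra K E]
  [Algebra A E] [IsScalarTower A K E]

theorem a1_exists_trace (z : L) (hz : IsIntegral A z) :
    ∃ t : A, ∑ σ : L →ₐ[K] E, σ z = algebraMap A E t := by
  have h1 : IsIntegral A (Algebra.trace K L z) := Algebra.isIntegral_trace hz
  obtain ⟨t, ht⟩ := IsIntegrallyClosed.isIntegral_iff.mp h1
  refine ⟨t, ?_⟩
  rw [← trace_eq_sum_embeddings E, ← ht, ← IsScalarTower.algebraMap_apply]

end A1abstract

section A1
variable {𝔸 F Ωb : Type*} [CommRing 𝔸] [Field F] [Field Ωb] (i : 𝔸 →+* F) (e : 𝔸 →+* Ωb)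

theorem finite_Emb_sep (hi : Function.Injective i) (he : Function.Injective e)
    (hfd : FiniteDimensional (Subfield.closure (Set.range i)) F) : Finite (Emb i e) := by
  let _ : Algebra (Subfield.closure (Set.range i)) Ωb := (f1_lift i e hi he).toAlgebra
  exact Finite.of_equiv _ (f1_equiv i e hi he).symm

theorem exists_trace_sep [IsDomain 𝔸] [IsIntegrallyClosed 𝔸] [IsAlgClosed Ωb]
    (hi : Function.Injective i) (he : Function.Injective e)
    (hfd : FiniteDimensional (Subfield.closure (Set.range i)) F)
    (hsep : Algebra.IsSeparable (Subfield.closure (Set.range i)) F) [Fintype (Emb i e)]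
    (z : F) (hz : i.IsIntegralElem z) : ∃ t : 𝔸, ∑ σ : Emb i e, σ.1 z = e t := by
  let _ : Algebra (Subfield.closure (Set.range i)) Ωb := (f1_lift i e hi he).toAlgebra
  let _ : Algebra 𝔸 (Subfield.closure (Set.range i)) := (f1_cod i).toAlgebra
  let _ : Algebra 𝔸 F := i.toAlgebra
  let _ : Algebra 𝔸 Ωb := e.toAlgebra
  have := f1_isFractionRing i hi
  have : IsScalarTower 𝔸 (Subfield.closure (Set.range i)) F :=
    IsScalarTower.of_algebraMap_eq fun _ => rfl
  have : IsScalarTower 𝔸 (Subfield.closure (Set.range i)) Ωb :=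
    IsScalarTower.of_algebraMap_eq fun a => (f1_lift_cod i e hi he a).symm
  obtain ⟨t, ht⟩ := a1_exists_trace (A := 𝔸) (K := Subfield.closure (Set.range i)) (E := Ωb) z hz
  refine ⟨t, ?_⟩
  rw [show e t = algebraMap 𝔸 Ωb t from rfl, ← ht]
  exact Fintype.sum_equiv (f1_equiv i e hi he) _ _ fun σ => rfl

end A1

end Fermat.Agent.GAL.CT
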