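import Fermat.Agent.GAL.CT.OOPP

/-!
# GAL / CT / ALG-4 : traces of integral elements; the radical argument

`t ∈ k((q))`, `K₀ = k(t)`, `E` a finite separable extension of `K₀` inside `k((q))`.
-/

set_option autoImplicit false
set_option linter.style.haveILetI false
set_option linter.unusedSectionVars false
noncomputable section

namespace Fermat.Agent.GAL.CT

open Polynomial IntermediateField

/-! ## the abstract radical argument -/

/-- `R` integrally closed with fraction field `K`, `L / K` finite separable, `c ∈ R` squarefree,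
`w ^ e = c g` with `g` integral over `R`.  Then `c ∣ Tr w` in `R`. -/
theorem tracePoly_abstract {R K L : Type*} [CommRing R] [IsDomain R] [IsIntegrallyClosed R]
    [DecompositionMonoid R] [Field K] [Algebra R K] [IsFractionRing R K] [Field L] [Algebra K L]
    [Algebra R L] [IsScalarTower R K L] [FiniteDimensional K L] [Algebra.IsSeparable K L]
    (c : R) (hc : Squarefree c) (w g : L) (e : ℕ) (he : 0 < e) (hg : IsIntegral R g)
    (hw : w ^ e = algebraMap R L c * g) :
    ∃ P : R, Algebra.trace K L w = algebraMap R K (c * P) := by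
  classical
  have hwint : IsIntegral R w := IsIntegral.of_pow he (by rw [hw]; exact isIntegral_algebraMap.mul hg)
  obtain ⟨s, hs⟩ := IsIntegrallyClosed.isIntegral_iff.mp (Algebra.isIntegral_trace (L := K) hwint)
  have hc0 : c ≠ 0 := hc.ne_zero
  have hσint : ∀ σ : L →ₐ[K] AlgebraicClosure K, ∀ z : L, IsIntegral R z → IsIntegral R (σ z) :=
    fun σ z hz => hz.map σ
  let f : (L →ₐ[K] AlgebraicClosure K) → integralClosure R (AlgebraicClosure K) :=
    fun σ => ⟨σ w, hσint σ w hwint⟩
  have hf : ∀ σ, f σ ∈ Ideal.radical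
      (Ideal.span {algebraMap R (integralClosure R (AlgebraicClosure K)) c}) := by
    intro σ
    rw [Ideal.mem_radical_iff]
    refine ⟨e, Ideal.mem_span_singleton.mpr ⟨⟨σ g, hσint σ g hg⟩, ?_⟩⟩
    apply Subtype.ext
    change (σ w) ^ e = algebraMap R (AlgebraicClosure K) c * σ g
    rw [← map_pow, hw, map_mul, IsScalarTower.algebraMap_apply R K L, AlgHom.commutes,
      ← IsScalarTower.algebraMap_apply]
  have hsum : algebraMap R (integralClosure R (AlgebraicClosure K)) s = ∑ σ, f σ := by
    apply Subtype.ext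
    rw [AddSubmonoidClass.coe_finsetSum]
    change algebraMap R (AlgebraicClosure K) s = ∑ σ : L →ₐ[K] AlgebraicClosure K, σ w
    rw [← trace_eq_sum_embeddings (AlgebraicClosure K), ← hs, ← IsScalarTower.algebraMap_apply]
  have hmem := Ideal.sum_mem _ (fun σ (_ : σ ∈ Finset.univ) => hf σ)
  rw [← hsum, Ideal.mem_radical_iff] at hmem
  obtain ⟨n, hn⟩ := hmem
  obtain ⟨u, hu⟩ := Ideal.mem_span_singleton.mp hn
  have hu' : algebraMap R (AlgebraicClosure K) s ^ n =
      algebraMap R (AlgebraicClosure K) c * (u : AlgebraicClosure K) := congrArg Subtype.val hu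
  have hcK : algebraMap R K c ≠ 0 := by
    rw [Ne, map_eq_zero_iff _ (IsFractionRing.injective R K)]
    exact hc0
  have hcΩ : algebraMap K (AlgebraicClosure K) (algebraMap R K c) ≠ 0 := by
    rw [Ne, map_eq_zero]
    exact hcK
  have hu2 : (u : AlgebraicClosure K) =
      algebraMap K (AlgebraicClosure K) (algebraMap R K s ^ n / algebraMap R K c) := by
    rw [map_div₀, map_pow, eq_div_iff hcΩ, ← IsScalarTower.algebraMap_apply,
      ← IsScalarTower.algebraMap_apply, hu', mul_comm]
  have hu3 : IsIntegral R (algebraMap R K s ^ n / algebraMap R K c) := by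
    have h := u.2
    rw [hu2] at h
    exact (isIntegral_algHom_iff (IsScalarTower.toAlgHom R K (AlgebraicClosure K))
      (algebraMap K (AlgebraicClosure K)).injective).mp h
  obtain ⟨u', hu'⟩ := IsIntegrallyClosed.isIntegral_iff.mp hu3
  have hdvd : c ∣ s ^ n := by
    refine ⟨u', IsFractionRing.injective R K ?_⟩
    rw [map_mul, hu', map_pow, mul_div_cancel₀ _ hcK]
  have hdvd' : c ∣ s := by
    rcases Nat.eq_zero_or_pos n with rfl | hn0
    · rw [pow_zero] at hdvd
      exact (isUnit_of_dvd_one hdvd).dvd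
    · exact (hc.dvd_pow_iff_dvd hn0.ne').mp hdvd
  obtain ⟨P, rfl⟩ := hdvd'
  exact ⟨P, hs.symm⟩

variable {k : Type*} [Field k]

/-! ## `t` is transcendental -/

/-- NB: the instance `Algebra k k((q))` found by Lean is `HahnSeries.powerSeriesAlgebra`. -/
theorem tracePoly_algebraMap (a : k) : algebraMap k (LaurentSeries k) a = HahnSeries.C a := by
  rw [HahnSeries.algebraMap_apply']
  simp

theorem tracePoly_coeff_smul (a : k) (x : LaurentSeries k) (n : ℤ) :
    (@HSMul.hSMul k (LaurentSeries k) _ (@instHSMul _ _ Algebra.toSMul) a x).coeff n = a * x.coeff n := by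
  rw [Algebra.smul_def, tracePoly_algebraMap, HahnSeries.C_mul_eq_smul]
  simp

theorem tracePoly_transcendental (t : LaurentSeries k) (ht : t.order = -1) : Transcendental k t := by
  rw [transcendental_iff]
  intro p hp
  by_contra hp0
  have ht0 : t ≠ 0 := by
    rintro rfl
    simp at ht
  have hord : ∀ i : ℕ, (t ^ i).order = -(i : ℤ) := by
    intro i
    rw [HahnSeries.order_pow, ht]
    simp
  have h : ∑ i ∈ Finset.range (p.natDegree + 1), p.coeff i * (t ^ i).coeff (-(p.natDegree : ℤ)) = 0 := by
    have h := congrArg (fun x : LaurentSeries k => x.coeff (-(p.natDegree : ℤ))) hp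
    simp only [aeval_eq_sum_range, HahnSeries.coeff_sum, HahnSeries.coeff_zero,
      tracePoly_coeff_smul] at h
    exact h
  rw [Finset.sum_eq_single p.natDegree] at h
  · rcases mul_eq_zero.mp h with h | h
    · exact hp0 (leadingCoeff_eq_zero.mp h)
    · rw [← hord] at h
      exact pow_ne_zero _ ht0 (HahnSeries.coeff_order_eq_zero.mp h)
  · intro i hi hne
    rw [HahnSeries.coeff_eq_zero_of_lt_order, mul_zero]
    rw [hord]
    have : i < p.natDegree := lt_of_le_of_ne (Nat.lt_succ_iff.mp (Finset.mem_range.mp hi)) hne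
    omega
  · intro h'
    exact absurd (Finset.mem_range.mpr (Nat.lt_succ_self _)) h'

/-! ## the `k[X]`-algebra structures -/

/-- `k[X] → k(t)`, `X ↦ t`. -/
@[instance_reducible]
def tracePolyAlg0 (t : LaurentSeries k) : Algebra k[X] (K0 t) :=
  (aeval (AdjoinSimple.gen k t) : k[X] →ₐ[k] K0 t).toRingHom.toAlgebra

theorem tracePoly_isFractionRing (t : LaurentSeries k) (h : Transcendental k t) :
    letI := tracePolyAlg0 t
    IsFractionRing k[X] (K0 t) := by
  letI := tracePolyAlg0 t
  exact IsLocalization.isLocalization_of_algEquiv (nonZeroDivisors k[X])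
    (AlgEquiv.ofRingEquiv (f := (RatFunc.algEquivOfTranscendental t h).toRingEquiv)
      (fun g => RatFunc.algEquivOfTranscendental_algebraMap t h g))

theorem tracePoly_coe_aeval_gen (t : LaurentSeries k) (p : k[X]) :
    ((aeval (AdjoinSimple.gen k t) p : K0 t) : LaurentSeries k) = aeval t p :=
  (aeval_algHom_apply (K0 t).val (AdjoinSimple.gen k t) p).symm

variable (t : LaurentSeries k) (E : IntermediateField (K0 t) (LaurentSeries k))

/-- `k[X] → E`. -/
@[instance_reducible]
def tracePolyAlgE : Algebra k[X] E :=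
  ((algebraMap (K0 t) E).comp
    (aeval (AdjoinSimple.gen k t) : k[X] →ₐ[k] K0 t).toRingHom).toAlgebra

theorem tracePoly_isIntegral0_iff (x : K0 t) :
    letI := tracePolyAlg0 t
    IsIntegral k[X] x ↔ IntOver t (x : LaurentSeries k) := by
  letI := tracePolyAlg0 t
  have key : ∀ p : k[X][X], eval₂ (evJ t) (x : LaurentSeries k) p =
      ((eval₂ (algebraMap k[X] (K0 t)) x p : K0 t) : LaurentSeries k) := by
    intro p
    have h := hom_eval₂ p (algebraMap k[X] (K0 t)) ((K0 t).val : K0 t →+* LaurentSeries k) x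
    have h2 : ((K0 t).val : K0 t →+* LaurentSeries k).comp (algebraMap k[X] (K0 t)) = evJ t :=
      RingHom.ext fun p => tracePoly_coe_aeval_gen t p
    rw [h2] at h
    exact h.symm
  constructor
  · rintro ⟨p, hp, h⟩
    exact ⟨p, hp, by rw [key, h]; rfl⟩
  · rintro ⟨p, hp, h⟩
    refine ⟨p, hp, ?_⟩
    rw [key] at h
    exact Subtype.ext h

theorem tracePoly_isIntegralE_iff (x : E) :
    letI := tracePolyAlgE t E
    IsIntegral k[X] x ↔ IntOver t (x : LaurentSeries k) := by
  letI := tracePolyAlgE t E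
  have key : ∀ p : k[X][X], eval₂ (evJ t) (x : LaurentSeries k) p =
      ((eval₂ (algebraMap k[X] E) x p : E) : LaurentSeries k) := by
    intro p
    have h := hom_eval₂ p (algebraMap k[X] E) (E.val : E →+* LaurentSeries k) x
    have h2 : (E.val : E →+* LaurentSeries k).comp (algebraMap k[X] E) = evJ t :=
      RingHom.ext fun p => tracePoly_coe_aeval_gen t p
    rw [h2] at h
    exact h.symm
  constructor
  · rintro ⟨p, hp, h⟩
    exact ⟨p, hp, by rw [key, h]; rfl⟩
  · rintro ⟨p, hp, h⟩
    refine ⟨p, hp, ?_⟩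
    rw [key] at h
    exact Subtype.ext h

variable [FiniteDimensional (K0 t) E] [Algebra.IsSeparable (K0 t) E]

/-- ALG-4a.  An element of `k(t)` which is integral over `k[t]` is a polynomial in `t`
(`t` has order `-1`, so it is transcendental over `k`). -/
theorem exists_polynomial_of_intOver (ht : t.order = -1) (x : K0 t)
    (hx : IntOver t (x : LaurentSeries k)) : ∃ P : k[X], (x : LaurentSeries k) = aeval t P := by
  letI := tracePolyAlg0 t
  haveI := tracePoly_isFractionRing t (tracePoly_transcendental t ht)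
  obtain ⟨P, hP⟩ := IsIntegrallyClosed.isIntegral_iff.mp ((tracePoly_isIntegral0_iff t x).mpr hx)
  exact ⟨P, by rw [← hP]; exact tracePoly_coe_aeval_gen t P⟩

/-- ALG-4b.  The trace of an integral element is a polynomial in `t`. -/
theorem trace_intOver (ht : t.order = -1) (w : E) (hw : IntOver t (w : LaurentSeries k)) :
    ∃ P : k[X], ((Algebra.trace (K0 t) E w : K0 t) : LaurentSeries k) = aeval t P := by
  refine exists_polynomial_of_intOver t ht _ ?_
  letI := tracePolyAlg0 t
  letI := tracePolyAlgE t E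
  haveI : IsScalarTower k[X] (K0 t) E := IsScalarTower.of_algebraMap_eq fun _ => rfl
  exact (tracePoly_isIntegral0_iff t _).mp
    (Algebra.isIntegral_trace (L := K0 t) ((tracePoly_isIntegralE_iff t E w).mpr hw))

/-- ALG-4c.  **Radical argument.**  `c` squarefree, `ψ`, `γ` integral over `k[t]`,
`(y c(t))^e = c(t) γ`.  Then `Tr (ψ y) ∈ k[t]`.

PROOF.  `w = ψ y c(t)` satisfies `w^e = c(t) ψ^e γ`, so `w` is integral over `k[t]`.  In
`O_t` = integral closure of `k[t]` in `Ω`, every `σ w` lies in the radical of `c(t) O_t`; hence so does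
`S = Tr w = ∑ σ w = s(t)`, `s ∈ k[X]`: `s(t)^n = c(t) u`, `u ∈ O_t ∩ k(t) = k[t]`.  So `c ∣ s^n`, `c ∣ s`
(`Squarefree`), and `Tr (ψ y) = S / c(t)`. -/
theorem trace_mem_polynomial (ht : t.order = -1) (c : k[X]) (hc : Squarefree c) (ψ y γ : E) (e : ℕ)
    (he : 0 < e) (hψ : IntOver t (ψ : LaurentSeries k)) (hγ : IntOver t (γ : LaurentSeries k))
    (hz : ((y : LaurentSeries k) * aeval t c) ^ e = aeval t c * (γ : LaurentSeries k)) :
    ∃ P : k[X], ((Algebra.trace (K0 t) E (ψ * y) : K0 t) : LaurentSeries k) = aeval t P := by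
  letI := tracePolyAlg0 t
  letI := tracePolyAlgE t E
  haveI : IsScalarTower k[X] (K0 t) E := IsScalarTower.of_algebraMap_eq fun _ => rfl
  haveI := tracePoly_isFractionRing t (tracePoly_transcendental t ht)
  have hcE : ((algebraMap k[X] E c : E) : LaurentSeries k) = aeval t c := tracePoly_coe_aeval_gen t c
  have hw : (algebraMap k[X] E c * (ψ * y)) ^ e = algebraMap k[X] E c * (ψ ^ e * γ) := by
    apply Subtype.ext
    push_cast
    rw [hcE, mul_comm (aeval t c) (_ * _), mul_assoc, mul_pow, hz]
    ring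
  obtain ⟨P, hP⟩ := tracePoly_abstract (K := K0 t) c hc (algebraMap k[X] E c * (ψ * y)) (ψ ^ e * γ) e he
    ((((tracePoly_isIntegralE_iff t E ψ).mpr hψ).pow e).mul ((tracePoly_isIntegralE_iff t E γ).mpr hγ)) hw
  refine ⟨P, ?_⟩
  rw [IsScalarTower.algebraMap_apply k[X] (K0 t) E, ← Algebra.smul_def, map_smul, smul_eq_mul,
    map_mul (algebraMap k[X] (K0 t))] at hP
  have hc0 : algebraMap k[X] (K0 t) c ≠ 0 := by
    rw [Ne, map_eq_zero_iff _ (IsFractionRing.injective k[X] (K0 t))]
    exact hc.ne_zero
  rw [mul_left_cancel₀ hc0 hP]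
  exact tracePoly_coe_aeval_gen t P

end Fermat.Agent.GAL.CT
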