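import Mathlib

/-!
# GAL / CT-A2 : a valuation subring of an algebraic extension of `k((q))` dominating `k[[q]]`
and separated for the `q`-adic topology.
-/

set_option autoImplicit false

namespace Fermat.Agent.GAL.CT

open Polynomial

section A2
variable (k : Type*) [Field k] (Ω : Type*) [Field Ω] [Algebra (LaurentSeries k) Ω]

/-- `V` dominates `k[[q]]` and is separated for the `q`-adic topology. -/
structure IsGoodVal (V : ValuationSubring Ω) : Prop where
  mem_iff : ∀ s : LaurentSeries k, algebraMap (LaurentSeries k) Ω s ∈ V ↔ 0 ≤ s.order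
  lt_one_iff : ∀ s : LaurentSeries k, V.valuation (algebraMap (LaurentSeries k) Ω s) < 1 ↔
    (s = 0 ∨ 0 < s.order)
  sep : ∀ s : LaurentSeries k, 0 < s.order → ∀ x : Ω,
    (∀ n : ℕ, ∃ y ∈ V, x = algebraMap (LaurentSeries k) Ω s ^ n * y) → x = 0

variable {k}

theorem a2_exists_powerSeries {s : LaurentSeries k} (hs : 0 ≤ s.order) :
    ∃ p : PowerSeries k, HahnSeries.ofPowerSeries ℤ k p = s := by
  obtain ⟨n, hn⟩ := Int.eq_ofNat_of_zero_le hs
  refine ⟨PowerSeries.X ^ n * s.powerSeriesPart, ?_⟩
  rw [map_mul, HahnSeries.ofPowerSeries_X_pow, ← hn]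
  exact LaurentSeries.single_order_mul_powerSeriesPart s

theorem a2_exists_nonunit {s : LaurentSeries k} (hs : 0 < s.order) :
    ∃ p : PowerSeries k, HahnSeries.ofPowerSeries ℤ k (PowerSeries.X * p) = s := by
  obtain ⟨p, hp⟩ := a2_exists_powerSeries hs.le
  have h0 : PowerSeries.constantCoeff p = 0 := by
    have h1 : s.coeff 0 = 0 := HahnSeries.coeff_eq_zero_of_lt_order hs
    rw [← hp] at h1
    have h2 := HahnSeries.ofPowerSeries_apply_coeff (Γ := ℤ) p 0
    rw [Nat.cast_zero, h1] at h2
    rw [← PowerSeries.coeff_zero_eq_constantCoeff_apply, ← h2]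
  obtain ⟨p', rfl⟩ := PowerSeries.X_dvd_iff.2 h0
  exact ⟨p', hp⟩

theorem a2_order_inv {s : LaurentSeries k} (hs : s ≠ 0) : (s⁻¹).order = -s.order := by
  have h := HahnSeries.order_mul hs (inv_ne_zero hs)
  rw [mul_inv_cancel₀ hs, HahnSeries.order_one] at h
  omega

variable (k)

theorem exists_isGoodVal [Algebra.IsAlgebraic (LaurentSeries k) Ω] :
    ∃ V : ValuationSubring Ω, IsGoodVal k Ω V := by
  set c : LaurentSeries k →+* Ω := algebraMap (LaurentSeries k) Ω with hc
  set f : PowerSeries k →+* Ω := c.comp (HahnSeries.ofPowerSeries ℤ k) with hf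
  obtain ⟨V, hV, hloc⟩ := IsLocalRing.exists_factor_valuationRing f
  have hfinj : Function.Injective f :=
    c.injective.comp HahnSeries.ofPowerSeries_injective
  -- valuation of the image of `X`
  have hXlt : V.valuation (f PowerSeries.X) < 1 := by
    have h1 : (⟨f PowerSeries.X, hV _⟩ : V) ∈ IsLocalRing.maximalIdeal V := by
      rw [IsLocalRing.mem_maximalIdeal, mem_nonunits_iff]
      intro hu
      have := hloc.map_nonunit PowerSeries.X hu
      exact PowerSeries.X_irreducible.not_isUnit this
    exact (V.valuation_lt_one_iff _).1 h1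
  have hX0 : V.valuation (f PowerSeries.X) ≠ 0 := by
    rw [ne_eq, map_eq_zero]
    intro h
    exact PowerSeries.X_ne_zero (hfinj (by rw [h, map_zero]))
  have hle : ∀ p : PowerSeries k, V.valuation (f p) ≤ 1 := fun p =>
    (V.valuation_le_one_iff _).2 (hV p)
  have hunit : ∀ u : (PowerSeries k)ˣ, V.valuation (f u) = 1 := by
    intro u
    apply le_antisymm (hle _)
    have h1 : V.valuation (f u) * V.valuation (f (u⁻¹ : (PowerSeries k)ˣ)) = 1 := by
      rw [← map_mul, ← map_mul, Units.mul_inv, map_one, map_one]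
    calc (1 : V.ValueGroup) = V.valuation (f u) * V.valuation (f (u⁻¹ : (PowerSeries k)ˣ)) := h1.symm
      _ ≤ V.valuation (f u) * 1 := by gcongr; exact hle _
      _ = V.valuation (f u) := mul_one _
  have hpos : ∀ s : LaurentSeries k, 0 < s.order →
      V.valuation (c s) ≤ V.valuation (f PowerSeries.X) := by
    intro s hs
    obtain ⟨p, hp⟩ := a2_exists_nonunit hs
    have : c s = f PowerSeries.X * f p := by
      rw [← map_mul, hf, RingHom.comp_apply, hp]
    rw [this, map_mul]
    calc V.valuation (f PowerSeries.X) * V.valuation (f p)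
        ≤ V.valuation (f PowerSeries.X) * 1 := by gcongr; exact hle _
      _ = _ := mul_one _
  have hnonneg : ∀ s : LaurentSeries k, 0 ≤ s.order → V.valuation (c s) ≤ 1 := by
    intro s hs
    obtain ⟨p, hp⟩ := a2_exists_powerSeries hs
    have : c s = f p := by rw [hf, RingHom.comp_apply, hp]
    rw [this]; exact hle p
  have hltone : ∀ s : LaurentSeries k, V.valuation (c s) < 1 ↔ (s = 0 ∨ 0 < s.order) := by
    intro s
    constructor
    · intro h
      by_contra hcon
      push Not at hcon
      obtain ⟨hs0, hs⟩ := hcon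
      have h1 : V.valuation (c s⁻¹) ≤ 1 := hnonneg _ (by rw [a2_order_inv hs0]; omega)
      have h2 : V.valuation (c s) * V.valuation (c s⁻¹) = 1 := by
        rw [← map_mul, ← map_mul, mul_inv_cancel₀ hs0, map_one, map_one]
      have h3 : V.valuation (c s) * V.valuation (c s⁻¹) < 1 := by
        calc V.valuation (c s) * V.valuation (c s⁻¹) ≤ V.valuation (c s) * 1 := by gcongr
          _ = V.valuation (c s) := mul_one _
          _ < 1 := h
      exact h3.ne h2
    · rintro (rfl | hs)
      · rw [map_zero, map_zero]; exact zero_lt_one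
      · exact (hpos s hs).trans_lt hXlt
  refine ⟨V, ⟨fun s => ?_, hltone, ?_⟩⟩
  · rw [← V.valuation_le_one_iff]
    constructor
    · intro h
      by_contra hcon
      push Not at hcon
      have hs0 : s ≠ 0 := by
        rintro rfl
        simp at hcon
      have h1 : V.valuation (c s⁻¹) < 1 :=
        (hltone _).2 (Or.inr (by rw [a2_order_inv hs0]; omega))
      have h2 : V.valuation (c s) * V.valuation (c s⁻¹) = 1 := by
        rw [← map_mul, ← map_mul, mul_inv_cancel₀ hs0, map_one, map_one]
      have h3 : V.valuation (c s) * V.valuation (c s⁻¹) < 1 := by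
        calc V.valuation (c s) * V.valuation (c s⁻¹) ≤ 1 * V.valuation (c s⁻¹) := by gcongr
          _ = V.valuation (c s⁻¹) := one_mul _
          _ < 1 := h1
      exact h3.ne h2
    · exact hnonneg s
  · intro s hs x hx
    by_contra hx0
    -- upper bounds
    have hup : ∀ n : ℕ, V.valuation x ≤ V.valuation (f PowerSeries.X) ^ n := by
      intro n
      obtain ⟨y, hy, rfl⟩ := hx n
      rw [map_mul, map_pow]
      calc V.valuation (c s) ^ n * V.valuation y ≤ V.valuation (c s) ^ n * 1 := by
            gcongr; exact (V.valuation_le_one_iff _).2 hy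
        _ = V.valuation (c s) ^ n := mul_one _
        _ ≤ V.valuation (f PowerSeries.X) ^ n := by gcongr; exact hpos s hs
    -- lower bound
    let _ : Algebra (PowerSeries k) Ω := f.toAlgebra
    have : IsScalarTower (PowerSeries k) (LaurentSeries k) Ω :=
      IsScalarTower.of_algebraMap_eq (fun _ => rfl)
    have halg : IsAlgebraic (PowerSeries k) x⁻¹ :=
      (IsFractionRing.isAlgebraic_iff (PowerSeries k) (LaurentSeries k) Ω).2
        (Algebra.IsAlgebraic.isAlgebraic x⁻¹)
    obtain ⟨d, hd0, hdint⟩ := halg.exists_integral_multiple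
    obtain ⟨P, hPm, hP⟩ := hdint
    have hmem : d • x⁻¹ ∈ V := by
      have hint : IsIntegral V (d • x⁻¹) := by
        refine ⟨P.map (f.codRestrict V.toSubring hV), hPm.map _, ?_⟩
        rw [Polynomial.eval₂_map]
        exact hP
      obtain ⟨y, hy⟩ := IsIntegrallyClosed.isIntegral_iff.1 hint
      rw [← hy]; exact y.2
    have hdx : d • x⁻¹ = f d * x⁻¹ := rfl
    rw [hdx, ← V.valuation_le_one_iff, map_mul, map_inv₀] at hmem
    have hvx0 : V.valuation x ≠ 0 := by rwa [ne_eq, map_eq_zero]
    have hlow : V.valuation (f d) ≤ V.valuation x := by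
      have := mul_le_mul_left hmem (V.valuation x)
      rwa [one_mul, inv_mul_cancel_right₀ hvx0] at this
    obtain ⟨m, u, hdu⟩ := IsDiscreteValuationRing.eq_unit_mul_pow_irreducible hd0
      (PowerSeries.X_irreducible (R := k))
    rw [hdu, map_mul, map_mul, hunit, one_mul, map_pow, map_pow] at hlow
    have h1 := hlow.trans (hup (m + 1))
    rw [pow_succ] at h1
    have h2 : V.valuation (f PowerSeries.X) ^ m * V.valuation (f PowerSeries.X) <
        V.valuation (f PowerSeries.X) ^ m * 1 := by
      have hpm : 0 < V.valuation (f PowerSeries.X) ^ m := by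
        exact pow_pos (zero_lt_iff.2 hX0) m
      exact mul_lt_mul_of_pos_left hXlt hpm
    rw [mul_one] at h2
    exact absurd h1 (not_le.2 h2)

end A2

end Fermat.Agent.GAL.CT
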